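import Mathlib.NumberTheory.ModularForms.CongruenceSubgroups
import Mathlib.Algebra.Field.ZMod
import Mathlib.Tactic.LinearCombination
import Fermat.Prelude.Def_ModularForm_HeckeOperator

/-!
# The Hecke operator at a good prime on `Γ₁(N)`
-/

set_option autoImplicit false

noncomputable section

open CongruenceSubgroup ModularForm UpperHalfPlane
open Matrix.SpecialLinearGroup (mapGL)
open scoped MatrixGroups ModularForm

namespace Fermat.Agent.DeligneSerre

variable {N p : ℕ}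

theorem mem_gamma1_iff {A : SL(2, ℤ)} :
    A ∈ Gamma1 N ↔ (A 1 0 : ZMod N) = 0 ∧ (A 1 1 : ZMod N) = 1 := by
  rw [Gamma1_mem]
  refine ⟨fun h => ⟨h.2.2, h.2.1⟩, fun h => ⟨?_, h.2, h.1⟩⟩
  have hd := congrArg (Int.cast : ℤ → ZMod N) A.det_coe
  rw [Matrix.det_fin_two] at hd
  push_cast at hd
  rwa [h.1, h.2, mul_one, mul_zero, sub_zero] at hd

theorem gamma1_conj {γ A : SL(2, ℤ)} (hγ : γ ∈ Gamma0 N) (hA : A ∈ Gamma1 N) :
    γ * A * γ⁻¹ ∈ Gamma1 N := by
  have hA0 : A ∈ Gamma0 N := Gamma1_in_Gamma0 N hA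
  have hmem : γ * A * γ⁻¹ ∈ Gamma0 N := mul_mem (mul_mem hγ hA0) (inv_mem hγ)
  have h1 : Gamma0Map N ⟨A, hA0⟩ = 1 := (mem_gamma1_iff.1 hA).2
  have h : Gamma0Map N (⟨γ, hγ⟩ * ⟨A, hA0⟩ * ⟨γ, hγ⟩⁻¹) = 1 := by
    rw [map_mul, map_mul, h1, mul_one, ← map_mul, mul_inv_cancel, map_one]
  exact mem_gamma1_iff.2 ⟨Gamma0_mem.1 hmem, h⟩

theorem coe_mapGL_apply (A : SL(2, ℤ)) (i j : Fin 2) :
    ((mapGL ℝ A : GL (Fin 2) ℝ) : Matrix (Fin 2) (Fin 2) ℝ) i j = (A i j : ℝ) := by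
  simp

theorem exists_sl2 (a b c d : ℤ) (h : a * d - b * c = 1) :
    ∃ A : SL(2, ℤ), A 0 0 = a ∧ A 0 1 = b ∧ A 1 0 = c ∧ A 1 1 = d :=
  ⟨⟨!![a, b; c, d], by rw [Matrix.det_fin_two_of]; exact h⟩, rfl, rfl, rfl, rfl⟩

/-- The representatives `β_j` and `γ_p diag(p,1)`. -/
def heckeRep (γp : SL(2, ℤ)) (p : ℕ) : Option (Fin p) → GL (Fin 2) ℝ
  | none => mapGL ℝ γp * heckeDiagMatrix p
  | some j => heckeMatrix p j

variable [NeZero p]

theorem exists_zmod_repr (hp : p.Prime) {x : ℤ} (hx : ¬ (p : ℤ) ∣ x) (y : ℤ) :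
    ∃ j : Fin p, (p : ℤ) ∣ y - (j : ℕ) * x := by
  have : Fact p.Prime := ⟨hp⟩
  have hx' : (x : ZMod p) ≠ 0 := fun h => hx ((ZMod.intCast_zmod_eq_zero_iff_dvd x p).1 h)
  refine ⟨⟨((y : ZMod p) / x).val, ZMod.val_lt _⟩, ?_⟩
  rw [← ZMod.intCast_zmod_eq_zero_iff_dvd]
  push_cast
  rw [ZMod.natCast_val, ZMod.cast_id', id_eq, div_mul_cancel₀ _ hx', sub_self]

theorem exists_heckeRep_mul (hp : p.Prime) (hpN : ¬ p ∣ N) {γp : SL(2, ℤ)} (hγp : γp ∈ Gamma0 N)
    (hγpp : (γp 1 1 : ZMod N) = p) {g : SL(2, ℤ)} (hg : g ∈ Gamma1 N) (i : Option (Fin p)) :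
    ∃ i', ∃ γ ∈ Gamma1 N, heckeRep γp p i * mapGL ℝ g = mapGL ℝ γ * heckeRep γp p i' := by
  have hpR : (p : ℝ) ≠ 0 := Nat.cast_ne_zero.2 hp.ne_zero
  have hcop : (p : ℤ).natAbs.Coprime N := by simpa using hp.coprime_iff_not_dvd.2 hpN
  obtain ⟨hc, hd⟩ := mem_gamma1_iff.1 hg
  have hdet := g.det_coe
  rw [Matrix.det_fin_two] at hdet
  match i with
  | some j =>
    by_cases hdiv : (p : ℤ) ∣ g 0 0 + (j : ℕ) * g 1 0
    · obtain ⟨u, hu⟩ := hdiv
      obtain ⟨δ, d00, d01, d10, d11⟩ := exists_sl2 (u) (g 0 1 + (j : ℕ) * g 1 1) (g 1 0)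
        (p * g 1 1) (by linear_combination hdet - (g 1 1) * hu)
      have hδ : δ ∈ Gamma0 N := Gamma0_mem.2 (d10 ▸ hc)
      refine ⟨none, δ * γp⁻¹, mem_gamma1_iff.2 ?_, ?_⟩
      · have hm : δ * γp⁻¹ ∈ Gamma0 N := mul_mem hδ (inv_mem hγp)
        refine ⟨Gamma0_mem.1 hm, ?_⟩
        have h1 : Gamma0Map N ⟨δ, hδ⟩ = Gamma0Map N ⟨γp, hγp⟩ := by
          show ((δ 1 1 : ℤ) : ZMod N) = ((γp 1 1 : ℤ) : ZMod N)
          simp [d11, hγpp, hd]
        show Gamma0Map N (⟨δ, hδ⟩ * ⟨γp, hγp⟩⁻¹) = 1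
        rw [map_mul, h1, ← map_mul, mul_inv_cancel, map_one]
      · rw [map_mul]
        simp only [heckeRep]
        rw [mul_assoc, ← mul_assoc (mapGL ℝ γp⁻¹), ← map_mul, inv_mul_cancel, map_one, one_mul]
        have hu' : (g 0 0 : ℝ) + (j : ℕ) * g 1 0 = p * u := by exact_mod_cast hu
        refine Units.ext (Matrix.ext fun a b => ?_)
        rw [Units.val_mul, Units.val_mul, val_heckeMatrix hp.ne_zero,
          val_heckeDiagMatrix hp.ne_zero]
        fin_cases a <;> fin_cases b <;>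
          simp [d00, d01, d10, d11, Matrix.mul_apply, Fin.sum_univ_two] <;>
          linarith
    · obtain ⟨l, v, hv⟩ := exists_zmod_repr hp hdiv (g 0 1 + (j : ℕ) * g 1 1)
      obtain ⟨δ, d00, d01, d10, d11⟩ := exists_sl2 (g 0 0 + (j : ℕ) * g 1 0) (v) (p * g 1 0)
        (g 1 1 - (l : ℕ) * g 1 0) (by linear_combination hdet + (g 1 0) * hv)
      refine ⟨some l, δ, mem_gamma1_iff.2 ⟨by simp [d10, hc], by simp [d11, hc, hd]⟩, ?_⟩
      have hv' : (g 0 1 : ℝ) + (j : ℕ) * g 1 1 - (l : ℕ) * (g 0 0 + (j : ℕ) * g 1 0) = p * v := by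
        exact_mod_cast hv
      refine Units.ext (Matrix.ext fun a b => ?_)
      simp only [heckeRep]
      rw [Units.val_mul, Units.val_mul, val_heckeMatrix hp.ne_zero, val_heckeMatrix hp.ne_zero]
      fin_cases a <;> fin_cases b <;>
        simp [d00, d01, d10, d11, Matrix.mul_apply, Fin.sum_univ_two] <;> linarith
  | none =>
    by_cases hdiv : (p : ℤ) ∣ g 1 0
    · obtain ⟨u, hu⟩ := hdiv
      obtain ⟨δ, d00, d01, d10, d11⟩ := exists_sl2 (g 0 0) (p * g 0 1) (u)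
        (g 1 1) (by linear_combination hdet + (g 0 1) * hu)
      have hδ : δ ∈ Gamma1 N := by
        refine mem_gamma1_iff.2 ⟨d10 ▸ ?_, by simp [d11, hd]⟩
        have : (p : ZMod N) * u = 0 := by rw [← hc, hu]; push_cast; ring
        have hunit : IsUnit (p : ZMod N) := (ZMod.isUnit_iff_coprime p N).2 (by simpa using hcop)
        exact hunit.mul_right_eq_zero.1 this
      refine ⟨none, γp * δ * γp⁻¹, gamma1_conj hγp hδ, ?_⟩
      have hu' : (g 1 0 : ℝ) = p * u := by exact_mod_cast hu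
      simp only [heckeRep]
      rw [map_mul, map_mul, mul_assoc, mul_assoc, mul_assoc,
        ← mul_assoc (mapGL ℝ γp⁻¹), ← map_mul, inv_mul_cancel, map_one, one_mul]
      congr 1
      refine Units.ext (Matrix.ext fun a b => ?_)
      rw [Units.val_mul, Units.val_mul, val_heckeDiagMatrix hp.ne_zero]
      fin_cases a <;> fin_cases b <;>
        simp [d00, d01, d10, d11, Matrix.mul_apply, Fin.sum_univ_two] <;> linarith
    · obtain ⟨l, v, hv⟩ := exists_zmod_repr hp hdiv (g 1 1)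
      obtain ⟨δ, d00, d01, d10, d11⟩ := exists_sl2 (p * g 0 0) (g 0 1 - (l : ℕ) * g 0 0) (g 1 0)
        (v) (by linear_combination hdet - (g 0 0) * hv)
      have hδ : δ ∈ Gamma0 N := Gamma0_mem.2 (d10 ▸ hc)
      refine ⟨some l, γp * δ, mem_gamma1_iff.2 ⟨Gamma0_mem.1 (mul_mem hγp hδ), ?_⟩, ?_⟩
      · show Gamma0Map N (⟨γp, hγp⟩ * ⟨δ, hδ⟩) = 1
        rw [map_mul]
        show ((γp 1 1 : ℤ) : ZMod N) * ((δ 1 1 : ℤ) : ZMod N) = 1
        have : (p : ZMod N) * v = 1 := by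
          have h' := congrArg (Int.cast : ℤ → ZMod N) hv
          push_cast at h'
          rw [hd, hc, mul_zero, sub_zero] at h'
          exact h'.symm
        simp [d11, hγpp, this]
      have hv' : (g 1 1 : ℝ) - (l : ℕ) * g 1 0 = p * v := by exact_mod_cast hv
      simp only [heckeRep]
      rw [map_mul, mul_assoc, mul_assoc]
      congr 1
      refine Units.ext (Matrix.ext fun a b => ?_)
      rw [Units.val_mul, Units.val_mul, val_heckeDiagMatrix hp.ne_zero, val_heckeMatrix hp.ne_zero]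
      fin_cases a <;> fin_cases b <;>
        simp [d00, d01, d10, d11, Matrix.mul_apply, Fin.sum_univ_two] <;> linarith

omit [NeZero p] in
theorem heckeRep_eq_of_mul (hp : p.Prime) {γp γ : SL(2, ℤ)} {i k : Option (Fin p)}
    (h : heckeRep γp p i = mapGL ℝ γ * heckeRep γp p k) : i = k := by
  have hp1 : ∀ x : ℤ, (p : ℤ) * x ≠ 1 := fun x hx => by
    have := Int.eq_one_of_mul_eq_one_right (by positivity) hx
    exact hp.one_lt.ne' (by exact_mod_cast this)
  have e := Matrix.ext_iff.2 (congrArg Units.val h)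
  match i, k with
  | none, none => rfl
  | some j, some l =>
    have h00 := e 0 0
    have h01 := e 0 1
    simp [heckeRep, val_heckeMatrix hp.ne_zero, Matrix.mul_apply, Fin.sum_univ_two] at h00 h01
    rw [← h00, one_mul] at h01
    have h' : ((j : ℕ) : ℤ) = (l : ℕ) + γ 0 1 * p := by exact_mod_cast h01
    have hj := j.2
    have hl := l.2
    have : γ 0 1 = 0 := by
      rcases lt_trichotomy (γ 0 1) 0 with h0 | h0 | h0
      · nlinarith
      · exact h0
      · nlinarith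
    rw [this, zero_mul, add_zero] at h'
    exact congrArg some (Fin.ext (by exact_mod_cast h'))
  | some j, none =>
    have h00 := e 0 0
    simp [heckeRep, val_heckeMatrix hp.ne_zero, val_heckeDiagMatrix hp.ne_zero, Matrix.mul_apply,
      Fin.sum_univ_two] at h00
    refine absurd ?_ (hp1 (γ 0 0 * γp 0 0 + γ 0 1 * γp 1 0))
    have h' : (1 : ℝ) = p * ((γ 0 0 * γp 0 0 + γ 0 1 * γp 1 0 : ℤ) : ℝ) := by
      push_cast; linarith
    exact_mod_cast h'.symm
  | none, some l =>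
    have h00 := e 0 0
    have h10 := e 1 0
    simp [heckeRep, val_heckeMatrix hp.ne_zero, val_heckeDiagMatrix hp.ne_zero, Matrix.mul_apply,
      Fin.sum_univ_two] at h00 h10
    have h00' : γ 0 0 = γp 0 0 * p := by exact_mod_cast h00.symm
    have h10' : γ 1 0 = γp 1 0 * p := by exact_mod_cast h10.symm
    have hdet := γ.det_coe
    rw [Matrix.det_fin_two] at hdet
    exact absurd (by linear_combination hdet - (γ 1 1) * h00' + (γ 0 1) * h10')
      (hp1 (γp 0 0 * γ 1 1 - γ 0 1 * γp 1 0))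

/-- `T_p = U_p + ⟨p⟩ V_p` preserves invariance under `Γ₁(N)`. -/
theorem heckeSum_slash (hp : p.Prime) (hpN : ¬ p ∣ N) {γp : SL(2, ℤ)} (hγp : γp ∈ Gamma0 N)
    (hγpp : (γp 1 1 : ZMod N) = p) (k : ℤ) {F : ℍ → ℂ}
    (hF : ∀ γ ∈ Gamma1 N, F ∣[k] γ = F) {g : SL(2, ℤ)} (hg : g ∈ Gamma1 N) :
    (heckeU k p F + (F ∣[k] γp) ∣[k] heckeDiagMatrix p) ∣[k] g
      = heckeU k p F + (F ∣[k] γp) ∣[k] heckeDiagMatrix p := by
  have hsum : heckeU k p F + (F ∣[k] γp) ∣[k] heckeDiagMatrix p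
      = ∑ i, F ∣[k] heckeRep γp p i := by
    rw [Fintype.sum_option, add_comm]
    simp only [heckeRep]
    rw [SlashAction.slash_mul, heckeU_def, ← Fin.sum_univ_eq_sum_range]
    rfl
  rw [hsum, SL_slash, SlashAction.sum_slash]
  simp only [← SlashAction.slash_mul]
  choose σ γ hγ hσ using exists_heckeRep_mul hp hpN hγp hγpp hg
  have hinj : Function.Injective σ := by
    intro i i' hii
    have h1 := hσ i
    have h2 := hσ i'
    rw [← hii] at h2
    refine heckeRep_eq_of_mul hp (γp := γp) (γ := γ i * (γ i')⁻¹) ?_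
    apply mul_right_cancel (b := mapGL ℝ g)
    rw [h1, map_mul, mul_assoc, mul_assoc, h2, ← mul_assoc (mapGL ℝ (γ i')⁻¹), ← map_mul,
      inv_mul_cancel, map_one, one_mul]
  refine Fintype.sum_bijective σ (Finite.injective_iff_bijective.1 hinj) _ _ fun i => ?_
  show F ∣[k] (heckeRep γp p i * mapGL ℝ g) = _
  rw [hσ i, SlashAction.slash_mul]
  exact congrArg (fun G => G ∣[k] _) (hF _ (hγ i))

end Fermat.Agent.DeligneSerre
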