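import Mathlib.LinearAlgebra.Dimension.Constructions
import Mathlib.RingTheory.Finiteness.Basic
import Mathlib.RingTheory.RootsOfUnity.Basic
import Fermat.Agent.DeligneSerre.AlgSeries
import Fermat.Agent.DeligneSerre.Deplete
import Fermat.Agent.IntegralStructure.Main
import Fermat.Agent.HeckeDuality.Coeff
import Fermat.Prelude.Thm_CuspForm_intLattice_fg

/-!
# The Hecke eigenvalues of a weight one eigenform are algebraic integers
-/

set_option autoImplicit false

noncomputable section

open CongruenceSubgroup ModularFormClass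
open UpperHalfPlane hiding I
open Fermat.Agent.IntegralStructure (qFun qHom qHom_apply qHom_injective mem_qFun_of_modularFormClass
  coeffSeq coeffSeq_apply coeffSeq_injective eq_zero_of_coeffSeq)
open scoped MatrixGroups ModularForm Manifold

namespace Fermat.Agent.DeligneSerre

variable {N : ℕ} [NeZero N]

/-- A normalised weight one eigenform away from the level whose coefficients at indices not prime
to the level vanish. -/
structure IsDepleted (ε : DirichletCharacter ℂ N) (a : ℕ → ℂ) : Prop where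
  one : a 1 = 1
  zero : a 0 = 0
  vanish : ∀ n, ¬ n.Coprime N → a n = 0
  hecke : HeckeRec ε a

namespace IsDepleted

variable {ε : DirichletCharacter ℂ N} {a : ℕ → ℂ}

omit [NeZero N] in
theorem coeff_mem (h : IsDepleted ε a) (S : Subring ℂ)
    (hp : ∀ p : ℕ, p.Prime → ¬ p ∣ N → a p ∈ S)
    (hε : ∀ p : ℕ, p.Prime → ¬ p ∣ N → ε (p : ZMod N) ∈ S) (n : ℕ) : a n ∈ S := by
  induction n using Nat.strong_induction_on with
  | _ n ih =>
    by_cases hn : n.Coprime N
    · rcases Nat.lt_or_ge n 2 with h2 | h2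
      · interval_cases n
        · rw [h.zero]; exact S.zero_mem
        · rw [h.one]; exact S.one_mem
      · have hpp : n.minFac.Prime := Nat.minFac_prime (by omega)
        obtain ⟨m, hm⟩ := Nat.minFac_dvd n
        have hpN : ¬ n.minFac ∣ N := fun hd =>
          hpp.one_lt.ne' (Nat.dvd_one.1 (hn ▸ Nat.dvd_gcd (Nat.minFac_dvd n) hd))
        have hmn : m < n := by
          rcases Nat.eq_zero_or_pos m with rfl | hpos
          · omega
          · calc m < n.minFac * m := lt_mul_of_one_lt_left hpos hpp.one_lt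
              _ = n := hm.symm
        have e := h.hecke _ hpp hpN m
        rw [← hm] at e
        rw [eq_sub_of_add_eq e]
        refine S.sub_mem (S.mul_mem (hp _ hpp hpN) (ih m hmn)) (S.mul_mem (hε _ hpp hpN) ?_)
        split_ifs
        · exact ih _ ((Nat.div_le_self _ _).trans_lt hmn)
        · exact S.zero_mem
    · rw [h.vanish n hn]; exact S.zero_mem

omit [NeZero N] in
theorem eq_of_primes {a' : ℕ → ℂ} (h : IsDepleted ε a) (h' : IsDepleted ε a')
    (hp : ∀ p : ℕ, p.Prime → ¬ p ∣ N → a p = a' p) : a = a' := by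
  funext n
  induction n using Nat.strong_induction_on with
  | _ n ih =>
    by_cases hn : n.Coprime N
    · rcases Nat.lt_or_ge n 2 with h2 | h2
      · interval_cases n
        · rw [h.zero, h'.zero]
        · rw [h.one, h'.one]
      · have hpp : n.minFac.Prime := Nat.minFac_prime (by omega)
        obtain ⟨m, hm⟩ := Nat.minFac_dvd n
        have hpN : ¬ n.minFac ∣ N := fun hd =>
          hpp.one_lt.ne' (Nat.dvd_one.1 (hn ▸ Nat.dvd_gcd (Nat.minFac_dvd n) hd))
        have hmn : m < n := by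
          rcases Nat.eq_zero_or_pos m with rfl | hpos
          · omega
          · calc m < n.minFac * m := lt_mul_of_one_lt_left hpos hpp.one_lt
              _ = n := hm.symm
        have e := h.hecke _ hpp hpN m
        have e' := h'.hecke _ hpp hpN m
        rw [← hm] at e e'
        rw [eq_sub_of_add_eq e, eq_sub_of_add_eq e', hp _ hpp hpN, ih m hmn,
          ih (m / n.minFac) ((Nat.div_le_self _ _).trans_lt hmn)]
    · rw [h.vanish n hn, h'.vanish n hn]

omit [NeZero N] in
theorem conj (h : IsDepleted ε a) (σ : ℂ →+* ℂ) :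
    IsDepleted (ε.ringHomComp σ) (fun n => σ (a n)) where
  one := by simp [h.one]
  zero := by simp [h.zero]
  vanish n hn := by simp [h.vanish n hn]
  hecke p hp hpN n := by
    show σ (a (p * n)) + σ (ε (p : ZMod N)) * (if p ∣ n then σ (a (n / p)) else 0) = σ (a p) * σ (a n)
    rw [← map_mul σ (a p), ← h.hecke p hp hpN n]
    split_ifs <;> simp

end IsDepleted

theorem isDepleted_deplete {ε : DirichletCharacter ℂ N} {f : CuspForm (Gamma1 N) 1}
    (hT : HeckeRec ε (qCoeff f)) (hf : qCoeff f 1 = 1) :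
    IsDepleted (DirichletCharacter.changeLevel (Dvd.intro N rfl) ε)
      (qCoeff (deplete f)) where
  one := by rw [qCoeff_deplete_one, hf]
  zero := CuspFormClass.qExpansion_coeff_zero _ one_pos one_mem_strictPeriods_gamma1
  vanish n hn := by
    rw [qCoeff_deplete, if_neg]
    exact fun h => hn (Nat.coprime_mul_iff_right.2 ⟨h, h⟩)
  hecke := hT.deplete

/-! ### Finitely many conjugates -/

theorem qCoeff_zero_fun (n : ℕ) : qCoeff (0 : ℍ → ℂ) n = 0 := by
  simp [qCoeff, UpperHalfPlane.qExpansion_zero]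

omit [NeZero N] in
theorem qCoeff_sum {ι : Type*} (s : Finset ι) (c : ι → ℂ) (g : ι → CuspForm (Gamma1 N) 1) (n : ℕ) :
    qCoeff (⇑(∑ i ∈ s, c i • g i)) n = ∑ i ∈ s, c i * qCoeff (g i) n := by
  classical
  have hΓ := one_mem_strictPeriods_gamma1 (N := N)
  induction s using Finset.induction_on with
  | empty => simpa using qCoeff_zero_fun n
  | @insert i t hi ih =>
    rw [Finset.sum_insert hi, Finset.sum_insert hi, FunLike.coe_add, qCoeff,
      UpperHalfPlane.qExpansion_add (ModularFormClass.analyticAt_cuspFunction_zero _ one_pos hΓ)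
        (ModularFormClass.analyticAt_cuspFunction_zero _ one_pos hΓ), map_add]
    congr 1
    rw [FunLike.coe_smul, UpperHalfPlane.qExpansion_smul
      (ModularFormClass.analyticAt_cuspFunction_zero _ one_pos hΓ)]
    rfl

omit [NeZero N] in
theorem hasNeb_sum {ι : Type*} (s : Finset ι) (c : ι → ℂ) (g : ι → CuspForm (Gamma1 N) 1)
    {ε : DirichletCharacter ℂ N} (h : ∀ i, HasNeb 1 ε ⇑(g i)) :
    HasNeb 1 ε ⇑(∑ i ∈ s, c i • g i) := by
  classical
  induction s using Finset.induction_on with
  | empty =>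
    intro γ _
    rw [Finset.sum_empty, FunLike.coe_zero, SlashAction.zero_slash, smul_zero]
  | @insert i t hi ih =>
    intro γ hγ
    rw [Finset.sum_insert hi, FunLike.coe_add, SlashAction.add_slash, ih γ hγ,
      FunLike.coe_smul, ModularForm.SL_smul_slash, h i γ hγ, smul_add, smul_comm]

/-- The sequences of depleted eigenforms with nebentypus `ε`. -/
def depletedSeqs (ε : DirichletCharacter ℂ N) : Set (ℕ → ℂ) :=
  {a | IsDepleted ε a ∧ ∃ g : CuspForm (Gamma1 N) 1, HasNeb 1 ε g ∧ qCoeff g = a}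

/-- Sturm's bound in weight one with nebentypus. -/
theorem eq_zero_of_low_coeff {ε : DirichletCharacter ℂ N} (hε : ε.Odd)
    (g : CuspForm (Gamma1 N) 1) (hg : HasNeb 1 ε g)
    (h : ∀ n ≤ ((2 : ℤ) * (Gamma0 N).index).toNat / 12, qCoeff g n = 0) : ⇑g = 0 := by
  set B := ((2 : ℤ) * (Gamma0 N).index).toNat / 12
  let qg : qFun := ⟨⇑g, mem_qFun_of_modularFormClass (by simp) g⟩
  let qe : qFun := ⟨eisOne ε⁻¹, eisOne_mem_qFun (inv_odd hε)⟩
  have hz : timesEis hε g hg = 0 := by
    refine eq_zero_of_coeffSeq fun n hn => ?_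
    show (qHom (qg * qe)).coeff n = 0
    rw [map_mul, PowerSeries.coeff_mul]
    refine Finset.sum_eq_zero fun x hx => ?_
    rw [qHom_apply, show (qExpansion 1 (qg : ℍ → ℂ)).coeff x.1 = qCoeff g x.1 from rfl,
      h x.1 (by have := Finset.HasAntidiagonal.mem_antidiagonal.1 hx; omega), zero_mul]
  have := congrArg (fun F : CuspForm (Gamma0 N) 2 => (⇑F : ℍ → ℂ)) hz
  simp only [timesEis, coe_mkCuspForm, FunLike.coe_zero] at this
  exact ((mul_eq_zero_iff (CuspFormClass.holo g) (mdifferentiable_eisOne (inv_odd hε))).1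
    this).resolve_right (eisOne_ne_zero (inv_odd hε))

omit [NeZero N] in
theorem linearIndependent_depletedSeqs (ε : DirichletCharacter ℂ N) :
    LinearIndependent ℂ (fun a : depletedSeqs ε => (a : ℕ → ℂ)) := by
  classical
  rw [linearIndependent_iff']
  intro s c hc
  induction s using Finset.induction_on generalizing c with
  | empty => simp
  | @insert i t hi ih =>
    have key : ∀ (p : ℕ), p.Prime → ¬ p ∣ N → ∀ j ∈ t,
        c j * ((j : ℕ → ℂ) p - (i : ℕ → ℂ) p) = 0 := by
      intro p hp hpN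
      refine ih (fun j => c j * ((j : ℕ → ℂ) p - (i : ℕ → ℂ) p)) ?_
      funext n
      simp only [Finset.sum_apply, Pi.smul_apply, smul_eq_mul, Pi.zero_apply]
      have h0 : ∀ m, ∑ j ∈ insert i t, c j * (j : ℕ → ℂ) m = 0 := fun m => by
        simpa [Finset.sum_apply] using congrFun hc m
      have h1 : ∑ j ∈ insert i t, c j * ((j : ℕ → ℂ) p * (j : ℕ → ℂ) n) = 0 := by
        calc _ = ∑ j ∈ insert i t, (c j * (j : ℕ → ℂ) (p * n) + ε (p : ZMod N) *
              (c j * if p ∣ n then (j : ℕ → ℂ) (n / p) else 0)) :=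
              Finset.sum_congr rfl fun j _ => by rw [← j.2.1.hecke p hp hpN n]; ring
          _ = 0 := by
            rw [Finset.sum_add_distrib, h0, ← Finset.mul_sum]
            split_ifs with hd
            · rw [h0, mul_zero, add_zero]
            · simp
      have h2 : ∑ j ∈ insert i t, (c j * ((j : ℕ → ℂ) p * (j : ℕ → ℂ) n)
          - (i : ℕ → ℂ) p * (c j * (j : ℕ → ℂ) n)) = 0 := by
        rw [Finset.sum_sub_distrib, h1, ← Finset.mul_sum, h0, mul_zero, sub_zero]
      rw [Finset.sum_insert hi] at h2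
      refine Eq.trans ?_ h2
      rw [show c i * ((i : ℕ → ℂ) p * (i : ℕ → ℂ) n) - (i : ℕ → ℂ) p * (c i * (i : ℕ → ℂ) n) = 0 by
        ring, zero_add]
      exact Finset.sum_congr rfl fun j _ => by ring
    have hct : ∀ j ∈ t, c j = 0 := by
      intro j hj
      by_contra hcj
      refine hi ?_
      have : (j : ℕ → ℂ) = i := j.2.1.eq_of_primes i.2.1 fun p hp hpN =>
        sub_eq_zero.1 ((mul_eq_zero.1 (key p hp hpN j hj)).resolve_left hcj)
      rwa [← Subtype.ext this]
    intro j hj
    rcases Finset.mem_insert.1 hj with rfl | hj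
    · rw [Finset.sum_insert hi, Finset.sum_eq_zero fun k hk => by rw [hct k hk, zero_smul],
        add_zero] at hc
      have := congrFun hc 1
      simpa [j.2.1.one] using this
    · exact hct j hj

theorem finite_depletedSeqs {ε : DirichletCharacter ℂ N} (hε : ε.Odd) :
    (depletedSeqs ε).Finite := by
  classical
  set B := ((2 : ℤ) * (Gamma0 N).index).toNat / 12 with hB
  let r : (ℕ → ℂ) →ₗ[ℂ] (Fin (B + 1) → ℂ) := LinearMap.funLeft ℂ ℂ fun i => (i : ℕ)
  have hli : LinearIndependent ℂ (fun a : depletedSeqs ε => r (a : ℕ → ℂ)) := by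
    rw [linearIndependent_iff']
    intro s c hc
    refine linearIndependent_iff'.1 (linearIndependent_depletedSeqs ε) s c ?_
    choose g hg hga using fun a : depletedSeqs ε => a.2.2
    have hG0 : ⇑(∑ a ∈ s, c a • g a) = 0 := by
      refine eq_zero_of_low_coeff hε _ (hasNeb_sum s c g hg) fun n hn => ?_
      have := congrFun hc ⟨n, Nat.lt_succ_of_le hn⟩
      simpa [qCoeff_sum, r, LinearMap.funLeft, Finset.sum_apply, hga] using this
    funext n
    have := congrArg (fun F : ℍ → ℂ => qCoeff F n) hG0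
    simp only [qCoeff_sum, qCoeff_zero_fun, hga] at this
    simpa [Finset.sum_apply] using this
  exact Set.finite_coe_iff.1 hli.finite

/-- The set of conjugates of the coefficient sequence is finite. -/
theorem finite_conjugates {ε : DirichletCharacter ℂ N} {g : CuspForm (Gamma1 N) 1}
    (hg : IsDepleted ε (qCoeff g)) :
    {b : ℕ → ℂ | ∃ σ : ℂ ≃+* ℂ, (fun n => σ (qCoeff g n)) = b}.Finite := by
  have : Finite (DirichletCharacter ℂ N) := inferInstanceAs (Finite (MulChar (ZMod N) ℂ))
  refine (Set.finite_iUnion (ι := {χ : DirichletCharacter ℂ N // χ.Odd})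
    fun χ => finite_depletedSeqs χ.2).subset ?_
  rintro b ⟨σ, rfl⟩
  have hε := hg.hecke.odd hg.one
  obtain ⟨g', hg', hq⟩ := exists_conj_weightOne σ.toRingHom hε g hg.hecke.nebentypus
  refine Set.mem_iUnion.2 ⟨⟨_, ringHomComp_odd σ.toRingHom hε⟩, hg.conj σ.toRingHom, g', hg', ?_⟩
  funext n
  show (qExpansion 1 ⇑g').coeff n = _
  rw [hq, PowerSeries.coeff_map]
  rfl

/-! ### Integrality -/

theorem isIntegral_character {M : ℕ} [NeZero M] (χ : DirichletCharacter ℂ M) (x : ZMod M) :
    IsIntegral ℤ (χ x) := by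
  by_cases hx : IsUnit x
  · obtain ⟨u, rfl⟩ := hx
    refine IsIntegral.of_pow (Fintype.card_pos (α := (ZMod M)ˣ)) ?_
    rw [← map_pow, ← Units.val_pow_eq_pow_val, pow_card_eq_one, Units.val_one, map_one]
    exact isIntegral_one
  · rw [χ.map_nonunit hx]; exact isIntegral_zero

theorem eisSeries_mem_zbar (ψ : DirichletCharacter ℂ N) (hψ : ψ.Odd) :
    PowerSeries.C ((2 * N : ℕ) : ℂ) * qExpansion 1 (eisOne ψ) ∈ zbarSeries := by
  intro n
  rw [PowerSeries.coeff_C_mul, qExpansion_eisOne hψ]
  rcases eq_or_ne n 0 with rfl | hn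
  · rw [show ((2 * N : ℕ) : ℂ) = 2 * (N : ℂ) by push_cast; ring, eisCoeff_zero_mul]
    refine (IsIntegral.sum _ fun t _ => ?_).neg
    exact (isIntegral_algebraMap (R := ℤ) (x := (t.val : ℤ))).mul (isIntegral_character ψ t)
  · rw [eisCoeff, if_neg hn]
    exact (isIntegral_algebraMap (R := ℤ) (x := ((2 * N : ℕ) : ℤ))).mul
      (IsIntegral.sum _ fun m _ => isIntegral_character ψ _)

/-- A form on `Γ₀` whose coefficient sequence has finite orbit has bounded denominators. -/
theorem exists_mul_mem_zbar {k : ℤ} (F : CuspForm (Gamma0 N) k)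
    (hfin : {b : ℕ → ℂ | ∃ σ : ℂ ≃+* ℂ, (fun n => σ (qCoeff F n)) = b}.Finite) :
    ∃ D : ℕ, D ≠ 0 ∧ PowerSeries.C (D : ℂ) * qExpansion 1 ⇑F ∈ zbarSeries := by
  classical
  have hspan : Submodule.span ℂ (CuspForm.intLattice N k : Set (CuspForm (Gamma0 N) k)) = ⊤ :=
    IntegralStructure.hasIntegralStructure N k
  obtain ⟨t, hts, htspan, htli⟩ :=
    exists_linearIndependent ℂ (CuspForm.intLattice N k : Set (CuspForm (Gamma0 N) k))
  have : FiniteDimensional ℂ (CuspForm (Gamma0 N) k) := by
    refine ⟨?_⟩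
    obtain ⟨S, hS⟩ := CuspForm.intLattice_fg N k
    refine ⟨S, ?_⟩
    rw [eq_top_iff, ← hspan, Submodule.span_le]
    intro x hx
    rw [SetLike.mem_coe, ← hS] at hx
    exact Submodule.span_subset_span ℤ ℂ _ hx
  have : Fintype t := htli.setFinite.fintype
  rw [hspan] at htspan
  have hF : F ∈ Submodule.span ℂ (Set.range (fun x : t => (x : CuspForm (Gamma0 N) k))) := by
    rw [Subtype.range_coe, htspan]; trivial
  obtain ⟨c, hc⟩ := (Submodule.mem_span_range_iff_exists_fun ℂ).1 hF
  have hcoeff : ∀ n, qCoeff F n = ∑ x : t, c x * qCoeff (x : CuspForm (Gamma0 N) k) n := by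
    intro n
    have := congrArg (coeffSeq N k) hc
    simp only [map_sum, map_smul] at this
    have := congrFun this n
    simp only [Finset.sum_apply, Pi.smul_apply, smul_eq_mul, coeffSeq_apply] at this
    exact this.symm
  have hint : ∀ (x : t) n, ∃ m : ℤ, qCoeff (x : CuspForm (Gamma0 N) k) n = (m : ℂ) :=
    fun x n => (HeckeDuality.mem_intLattice_iff _).1 (hts x.2) n
  -- the orbit of the coordinates is finite
  have hcfin : ∀ x : t, {y : ℂ | ∃ σ : ℂ ≃+* ℂ, σ (c x) = y}.Finite := by
    intro x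
    have hinj : Function.Injective fun d : t → ℂ =>
        fun n => ∑ x : t, d x * qCoeff (x : CuspForm (Gamma0 N) k) n := by
      intro d d' hdd
      have h0 : ∑ x : t, (d x - d' x) • (x : CuspForm (Gamma0 N) k) = 0 := by
        refine coeffSeq_injective ?_
        simp only [map_sum, map_smul, map_zero]
        funext n
        simp only [Finset.sum_apply, Pi.smul_apply, smul_eq_mul,
          coeffSeq_apply, Pi.zero_apply, sub_mul, Finset.sum_sub_distrib]
        exact sub_eq_zero.2 (congrFun hdd n)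
      funext x
      exact sub_eq_zero.1 (Fintype.linearIndependent_iff.1 htli _ h0 x)
    have hpre := (hfin.preimage hinj.injOn).image fun d => d x
    refine hpre.subset ?_
    rintro y ⟨σ, rfl⟩
    refine ⟨fun z => σ (c z), ⟨σ, funext fun n => ?_⟩, rfl⟩
    rw [hcoeff n, map_sum]
    refine Finset.sum_congr rfl fun z _ => ?_
    obtain ⟨m, hm⟩ := hint z n
    rw [map_mul, hm, map_intCast]
  choose D hD0 hD using fun x : t => exists_nat_mul_isIntegral (isAlgebraic_of_finite_orbit (hcfin x))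
  refine ⟨∏ x, D x, Finset.prod_ne_zero_iff.2 fun x _ => hD0 x, fun n => ?_⟩
  rw [PowerSeries.coeff_C_mul]
  show IsIntegral ℤ (_ * qCoeff F n)
  rw [hcoeff n, Finset.mul_sum]
  refine IsIntegral.sum _ fun x _ => ?_
  obtain ⟨m, hm⟩ := hint x n
  rw [hm, Nat.cast_prod, ← Finset.mul_prod_erase _ _ (Finset.mem_univ x),
    show (D x : ℂ) * (∏ y ∈ Finset.univ.erase x, (D y : ℂ)) * (c x * m)
      = ((D x : ℂ) * c x) * ((∏ y ∈ Finset.univ.erase x, (D y : ℂ)) * m) by ring]
  refine (hD x).mul ?_
  rw [← Nat.cast_prod]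
  exact (isIntegral_algebraMap (R := ℤ) (x := ((∏ y ∈ Finset.univ.erase x, D y : ℕ) : ℤ))).mul
    (isIntegral_algebraMap (R := ℤ) (x := m))

/-- All coefficients of a depleted eigenform are algebraic integers. -/
theorem isIntegral_coeff {ε : DirichletCharacter ℂ N} {g : CuspForm (Gamma1 N) 1}
    (hg : IsDepleted ε (qCoeff g)) (n : ℕ) : IsIntegral ℤ (qCoeff g n) := by
  classical
  have : Finite (DirichletCharacter ℂ N) := inferInstanceAs (Finite (MulChar (ZMod N) ℂ))
  have hε := hg.hecke.odd hg.one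
  have hneb := hg.hecke.nebentypus
  set m := orderOf ε with hm
  have hm0 : m ≠ 0 := (orderOf_pos ε).ne'
  have hG : (⇑g : ℍ → ℂ) ∈ qFun := mem_qFun_of_modularFormClass (by simp) g
  let qg : qFun := ⟨⇑g, hG⟩
  let qe : qFun := ⟨eisOne ε⁻¹, eisOne_mem_qFun (inv_odd hε)⟩
  have hS := finite_conjugates hg
  have hP : qExpansion 1 ⇑(powForm g hneb) = qHom qg ^ m := by
    show qHom (qg ^ m) = _
    rw [map_pow]
  have hH : qExpansion 1 ⇑(timesEis hε g hneb) = qHom qg * qHom qe := by
    show qHom (qg * qe) = _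
    rw [map_mul]
  have hconjg : ∀ σ : ℂ ≃+* ℂ, PowerSeries.map σ.toRingHom (qHom qg)
      = PowerSeries.mk (fun i => σ (qCoeff g i)) := fun σ => by
    ext i; simp [qHom_apply, qg, qCoeff]
  obtain ⟨D₁, hD₁, hP'⟩ := exists_mul_mem_zbar (powForm g hneb) <| by
    refine (hS.image fun b n => ((PowerSeries.mk b) ^ m).coeff n).subset ?_
    rintro _ ⟨σ, rfl⟩
    refine ⟨_, ⟨σ, rfl⟩, funext fun n => ?_⟩
    show _ = σ ((qExpansion 1 ⇑(powForm g hneb)).coeff n)
    rw [hP]
    dsimp only
    rw [← hconjg, ← map_pow, PowerSeries.coeff_map]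
    rfl
  obtain ⟨D₂, hD₂, hH'⟩ := exists_mul_mem_zbar (timesEis hε g hneb) <| by
    refine ((hS.prod (Set.finite_range fun χ : DirichletCharacter ℂ N => fun i => eisCoeff χ i)).image
      fun x : (ℕ → ℂ) × (ℕ → ℂ) => fun n => (PowerSeries.mk x.1 * PowerSeries.mk x.2).coeff n
      ).subset ?_
    rintro _ ⟨σ, rfl⟩
    refine ⟨((fun n => σ (qCoeff g n)), fun i => eisCoeff (ε⁻¹.ringHomComp σ.toRingHom) i),
      ⟨⟨σ, rfl⟩, ⟨ε⁻¹.ringHomComp σ.toRingHom, rfl⟩⟩, funext fun n => ?_⟩
    show _ = σ ((qExpansion 1 ⇑(timesEis hε g hneb)).coeff n)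
    rw [hH]
    dsimp only
    rw [← hconjg, show PowerSeries.mk (fun i => eisCoeff (ε⁻¹.ringHomComp σ.toRingHom) i)
      = PowerSeries.map σ.toRingHom (qHom qe) from by
        ext i
        simp [qHom_apply, qe, qExpansion_eisOne (inv_odd hε), eisCoeff_ringHomComp],
      ← map_mul, PowerSeries.coeff_map]
    rfl
  rw [hP] at hP'
  rw [hH] at hH'
  set D := D₁ * D₂
  have hD : D ≠ 0 := mul_ne_zero hD₁ hD₂
  have hX : PowerSeries.C (D : ℂ) * qHom qg ∈ zbarSeries := by
    refine mem_zbarSeries_of_pow (B := PowerSeries.C ((2 * N : ℕ) : ℂ) * qHom qe) hm0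
      (eisSeries_mem_zbar _ (inv_odd hε)) (mul_ne_zero ?_ ?_) ?_ ?_
    · exact (map_ne_zero_iff _ PowerSeries.C_injective).2
        (Nat.cast_ne_zero.2 (Nat.mul_ne_zero two_ne_zero (NeZero.ne N)))
    · intro h0
      exact eisOne_ne_zero (inv_odd hε) (congrArg Subtype.val
        (qHom_injective (by rw [h0, map_zero]) : qe = 0))
    · rw [show PowerSeries.C ((2 * N : ℕ) : ℂ) * qHom qe * (PowerSeries.C (D : ℂ) * qHom qg)
        = PowerSeries.C ((2 * N * D₁ : ℕ) : ℂ) * (PowerSeries.C (D₂ : ℂ) * (qHom qg * qHom qe)) by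
          simp only [D, Nat.cast_mul, map_mul]; ring]
      exact mul_mem (by rw [map_natCast]; exact natCast_mem _ _) hH'
    · obtain ⟨e, he⟩ := Nat.exists_eq_succ_of_ne_zero hm0
      rw [mul_pow, show PowerSeries.C (D : ℂ) ^ m * qHom qg ^ m
        = PowerSeries.C ((D ^ e * D₂ : ℕ) : ℂ) * (PowerSeries.C (D₁ : ℂ) * qHom qg ^ m) by
          rw [he, Nat.succ_eq_add_one]; simp only [D, Nat.cast_mul, Nat.cast_pow, map_mul, map_pow]; ring]
      exact mul_mem (by rw [map_natCast]; exact natCast_mem _ _) hP'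
  have hbdd : ∀ i, IsIntegral ℤ ((D : ℂ) * qCoeff g i) := fun i => by
    have := hX i
    rwa [PowerSeries.coeff_C_mul] at this
  refine hg.coeff_mem (integralClosure ℤ ℂ).toSubring (fun p hp hpN => ?_)
    (fun p _ _ => isIntegral_character ε _) n
  refine isIntegral_of_mul_pow (b := (D : ℂ)) (Nat.cast_ne_zero.2 hD)
    (isIntegral_algebraMap (R := ℤ) (x := (D : ℤ))) ?_
  have key : ∀ k j : ℕ, IsIntegral ℤ ((D : ℂ) * (qCoeff g p ^ k * qCoeff g (p ^ j))) := by
    intro k
    induction k with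
    | zero => intro j; rw [pow_zero, one_mul]; exact hbdd _
    | succ k ih =>
      intro j
      rw [pow_succ, mul_assoc (qCoeff g p ^ k), ← hg.hecke p hp hpN (p ^ j), ← pow_succ', mul_add,
        mul_add]
      refine (ih (j + 1)).add ?_
      split_ifs with hd
      · obtain ⟨i, rfl⟩ : ∃ i, j = i + 1 := by
          rcases j with _ | i
          · exact absurd (Nat.dvd_one.1 (by simpa using hd)) hp.one_lt.ne'
          · exact ⟨i, rfl⟩
        rw [pow_succ, Nat.mul_div_cancel _ hp.pos,
          show (D : ℂ) * (qCoeff g p ^ k * (ε (p : ZMod N) * qCoeff g (p ^ i)))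
            = ε (p : ZMod N) * ((D : ℂ) * (qCoeff g p ^ k * qCoeff g (p ^ i))) by ring]
        exact (isIntegral_character ε _).mul (ih i)
      · simp [isIntegral_zero]
  intro k
  have := key k 0
  rwa [pow_zero, hg.one, mul_one] at this

end Fermat.Agent.DeligneSerre
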