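import Fermat.Agent.DeligneSerre.ConnectedRam
import Mathlib.RingTheory.Localization.Integral
import Mathlib.FieldTheory.IsAlgClosed.AlgebraicClosure

/-!
# Valuation rings of algebraic numbers are archimedean; the reduction is a field
-/

set_option autoImplicit false
set_option linter.unusedSectionVars false

noncomputable section

open scoped Classical
open Polynomial IsLocalRing AlgebraicCurve

namespace Fermat.Agent.DeligneSerre

open Fermat.Agent.EichlerShimura Fermat.Agent.FF

section Arch

variable {L : Type*} [Field L] (A : ValuationSubring L)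

theorem valuation_intCast_le_one (a : ℤ) : A.valuation (a : L) ≤ 1 :=
  (A.valuation_le_one_iff _).mpr (intCast_mem A a)

theorem valuation_intCast_eq_one_of_isCoprime {p m : ℤ} (hp : A.valuation (p : L) < 1)
    (h : IsCoprime p m) : A.valuation (m : L) = 1 := by
  refine le_antisymm (valuation_intCast_le_one A m) (not_lt.mp fun hm => ?_)
  obtain ⟨a, b, hab⟩ := h
  have h1 : A.valuation ((a : L) * p + (b : L) * m) = 1 := by
    rw [← Int.cast_mul, ← Int.cast_mul, ← Int.cast_add, hab, Int.cast_one, map_one]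
  refine absurd h1 (ne_of_lt (lt_of_le_of_lt (A.valuation.map_add _ _) (max_lt ?_ ?_)))
  · rw [map_mul]; exact lt_of_le_of_lt (mul_le_of_le_one_left' (valuation_intCast_le_one A a)) hp
  · rw [map_mul]; exact lt_of_le_of_lt (mul_le_of_le_one_left' (valuation_intCast_le_one A b)) hm

theorem exists_prime_valuation_lt_one {a : ℤ} (ha : a ≠ 0) (h : A.valuation (a : L) < 1) :
    ∃ p : ℕ, p.Prime ∧ A.valuation (p : L) < 1 := by
  have key : ∀ n : ℕ, n ≠ 0 → A.valuation (n : L) < 1 →
      ∃ p : ℕ, p.Prime ∧ A.valuation (p : L) < 1 := by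
    intro n
    induction n using Nat.recOnMul with
    | zero => exact fun h => absurd rfl h
    | one => intro _ h; simp at h
    | prime p hp => exact fun _ h => ⟨p, hp, h⟩
    | mul x y hx hy =>
      intro hne h
      by_cases hlt : A.valuation (x : L) < 1
      · exact hx (left_ne_zero_of_mul hne) hlt
      · refine hy (right_ne_zero_of_mul hne) ?_
        rwa [Nat.cast_mul, map_mul,
          le_antisymm ((A.valuation_le_one_iff _).mpr (natCast_mem A x)) (not_lt.mp hlt), one_mul] at h
  refine key a.natAbs (Int.natAbs_ne_zero.mpr ha) ?_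
  rcases Int.natAbs_eq a with h' | h' <;> rw [h'] at h <;> simpa using h

theorem exists_valuation_eq_pow {p : ℕ} (hp : p.Prime) (hv : A.valuation (p : L) < 1) {a : ℤ}
    (ha : a ≠ 0) : ∃ e : ℕ, A.valuation (a : L) = A.valuation (p : L) ^ e := by
  have hfin : FiniteMultiplicity (p : ℤ) a :=
    Int.finiteMultiplicity_iff.mpr ⟨by simpa using hp.ne_one, ha⟩
  obtain ⟨m, hm, hm'⟩ := hfin.exists_eq_pow_mul_and_not_dvd
  refine ⟨multiplicity (p : ℤ) a, ?_⟩
  conv_lhs => rw [hm]
  rw [Int.cast_mul, map_mul, Int.cast_pow, map_pow, Int.cast_natCast,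
    valuation_intCast_eq_one_of_isCoprime A (by exact_mod_cast hv)
      ((Nat.prime_iff_prime_int.mp hp).irreducible.coprime_iff_not_dvd.mpr hm'), mul_one]

/-- Valuation rings of fields algebraic over the rationals are archimedean. -/
theorem isArchVal_of_isAlgebraic [CharZero L] (halg : ∀ x : L, IsAlgebraic ℚ x) : IsArchVal A := by
  intro c b hc
  rcases eq_or_ne c 0 with rfl | hc0
  · exact ⟨1, by simp⟩
  rcases le_or_gt (A.valuation b) 1 with hb | hb
  · exact ⟨1, by rw [map_mul, pow_one]; exact lt_of_le_of_lt (mul_le_of_le_one_right' hb) hc⟩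
  have hrel : ∀ x : L, x ≠ 0 → A.valuation x < 1 → ∃ (i j : ℕ) (a a' : ℤ),
      0 < j ∧ a ≠ 0 ∧ a' ≠ 0 ∧ A.valuation (a : L) = A.valuation (a' : L) * A.valuation x ^ j := by
    intro x hx0 _
    obtain ⟨q, hq0, hq⟩ := (IsFractionRing.isAlgebraic_iff ℤ ℚ L).mpr (halg x)
    obtain ⟨i, hi, hmax⟩ := Finset.exists_max_image q.support
      (fun k => A.valuation ((q.coeff k : L) * x ^ k)) (support_nonempty.mpr hq0)
    have hne : ∀ k ∈ q.support, (q.coeff k : L) * x ^ k ≠ 0 := fun k hk =>
      mul_ne_zero (Int.cast_ne_zero.mpr (mem_support_iff.mp hk)) (pow_ne_zero _ hx0)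
    obtain ⟨k, hk, hki, hle⟩ : ∃ k ∈ q.support, k ≠ i ∧
        A.valuation ((q.coeff i : L) * x ^ i) ≤ A.valuation ((q.coeff k : L) * x ^ k) := by
      by_contra! hcon
      refine hne i hi ((Valuation.zero_iff A.valuation).mp ?_)
      rw [← A.valuation.map_sum_eq_of_lt hi fun k hk => hcon k (Finset.mem_sdiff.mp hk).1
        (fun h => (Finset.mem_sdiff.mp hk).2 (Finset.mem_singleton.mpr h))]
      rw [aeval_def, eval₂_eq_sum, Polynomial.sum] at hq
      simpa [algebraMap_int_eq] using congrArg A.valuation hq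
    have heq := le_antisymm hle (hmax k hk)
    rw [map_mul, map_mul, map_pow, map_pow] at heq
    have hvx : A.valuation x ≠ 0 := (Valuation.ne_zero_iff _).mpr hx0
    rcases lt_or_gt_of_ne hki with h | h
    · refine ⟨0, i - k, q.coeff k, q.coeff i, by omega, mem_support_iff.mp hk, mem_support_iff.mp hi,
        mul_right_cancel₀ (pow_ne_zero k hvx) ?_⟩
      rw [← heq, mul_assoc, ← pow_add, Nat.sub_add_cancel h.le]
    · refine ⟨0, k - i, q.coeff i, q.coeff k, by omega, mem_support_iff.mp hi, mem_support_iff.mp hk,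
        mul_right_cancel₀ (pow_ne_zero i hvx) ?_⟩
      rw [heq, mul_assoc, ← pow_add, Nat.sub_add_cancel h.le]
  obtain ⟨-, j, a, a', hj, ha, ha', hcv⟩ := hrel c hc0 hc
  have hb0 : b ≠ 0 := fun h => by simp [h] at hb
  have hbi : A.valuation b⁻¹ < 1 := by rw [map_inv₀]; exact inv_lt_one_of_one_lt₀ hb
  obtain ⟨-, l, d, d', hl, hd, hd', hbv⟩ := hrel b⁻¹ (inv_ne_zero hb0) hbi
  have ha1 : A.valuation (a : L) < 1 := by
    rw [hcv]
    exact lt_of_le_of_lt (mul_le_of_le_one_left' (valuation_intCast_le_one A a'))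
      (pow_lt_one₀ zero_le hc hj.ne')
  obtain ⟨p, hp, hpv⟩ := exists_prime_valuation_lt_one A ha ha1
  obtain ⟨ea, hea⟩ := exists_valuation_eq_pow A hp hpv ha
  obtain ⟨ea', hea'⟩ := exists_valuation_eq_pow A hp hpv ha'
  obtain ⟨ed, hed⟩ := exists_valuation_eq_pow A hp hpv hd
  have hp0 : A.valuation (p : L) ≠ 0 :=
    (Valuation.ne_zero_iff _).mpr (Nat.cast_ne_zero.mpr hp.ne_zero)
  have hvp : 0 < A.valuation (p : L) := pos_iff_ne_zero.mpr hp0
  rw [hea, hea'] at hcv
  have hlt : ea' < ea := by
    by_contra! h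
    have : A.valuation (p : L) ^ ea' * A.valuation c ^ j < A.valuation (p : L) ^ ea :=
      lt_of_lt_of_le (mul_lt_of_lt_one_right (pow_pos hvp _) (pow_lt_one₀ zero_le hc hj.ne'))
        (pow_le_pow_right_of_le_one' hpv.le h)
    exact absurd hcv (ne_of_gt this)
  have hcp : A.valuation c ^ j ≤ A.valuation (p : L) := by
    obtain ⟨e, rfl⟩ := Nat.exists_eq_add_of_lt hlt
    rw [add_assoc, pow_add] at hcv
    rw [← mul_left_cancel₀ (pow_ne_zero _ hp0) hcv]
    exact pow_le_of_le_one zero_le hpv.le (Nat.succ_ne_zero e)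
  have hdb : A.valuation (p : L) ^ ed ≤ A.valuation b⁻¹ := by
    rw [← hed, hbv]
    exact (mul_le_of_le_one_left' (valuation_intCast_le_one A d')).trans
      (pow_le_of_le_one zero_le hbi.le hl.ne')
  refine ⟨j * (ed + 1), ?_⟩
  rw [map_mul, map_pow, pow_mul]
  calc (A.valuation c ^ j) ^ (ed + 1) * A.valuation b
      ≤ A.valuation (p : L) ^ (ed + 1) * A.valuation b :=
        mul_le_mul_left (pow_le_pow_left₀ zero_le hcp _) _
    _ < A.valuation (p : L) ^ ed * A.valuation b := by
        refine mul_lt_mul_of_pos_right ?_ (pos_iff_ne_zero.mpr ((Valuation.ne_zero_iff _).mpr hb0))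
        rw [pow_succ]
        exact mul_lt_of_lt_one_right (pow_pos hvp _) hpv
    _ ≤ A.valuation b⁻¹ * A.valuation b := mul_le_mul_left hdb _
    _ = 1 := by rw [← map_mul, inv_mul_cancel₀ hb0, map_one]

/-- Valuation rings of `ℚ̄` are archimedean. -/
theorem isArchVal_algebraicClosure (A : ValuationSubring (AlgebraicClosure ℚ)) : IsArchVal A := by
  refine isArchVal_of_isAlgebraic A fun x => ?_
  have h := (AlgebraicClosure.isAlgebraic ℚ).isAlgebraic x
  convert h
  · rfl
  · exact Subsingleton.elim _ _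

end Arch

/-- A finite reduced algebra without nontrivial idempotents is a field. -/
theorem isField_of_idem {B : Type*} [CommRing B] [IsReduced B] [IsArtinianRing B] [Nontrivial B]
    (h : ∀ e : B, IsIdempotentElem e → e = 0 ∨ e = 1) : IsField B := by
  refine ⟨exists_pair_ne B, mul_comm, fun {z} hz => ?_⟩
  obtain ⟨w, hw⟩ := exists_sq_mul_eq z
  refine ⟨w, ?_⟩
  rcases h (z * w) (by show z * w * (z * w) = z * w; linear_combination w * hw) with h | h
  · exact absurd (by linear_combination -hw + z * h) hz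
  · exact h

end Fermat.Agent.DeligneSerre
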