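import Mathlib.LinearAlgebra.Matrix.Trace
import Mathlib.LinearAlgebra.Matrix.ToLin
import Mathlib.LinearAlgebra.Dimension.Constructions
import Mathlib.LinearAlgebra.FiniteDimensional.Basic
import Mathlib.Tactic.LinearCombination
import Mathlib.Data.Fintype.Pi
import Mathlib.Data.Fintype.BigOperators

/-!
# Finite matrix groups with few traces

A finite subgroup of `GL₂(k)` which spans `M₂(k)` or is diagonal, and of which at least seven
eighths of the elements have trace in a given set of size `M`, has at most `2 M⁴` elements.
-/

set_option autoImplicit false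

namespace Fermat.Agent.DeligneSerre

variable {k : Type*} [Field k] {G : Type*} [Group G]

theorem exists_four (σ : G →* Matrix (Fin 2) (Fin 2) k) (h2 : (2 : k) ≠ 0)
    (hG : Submodule.span k (Set.range σ) = ⊤ ∨ ∀ g, σ g 0 1 = 0 ∧ σ g 1 0 = 0) :
    ∃ g : Fin 4 → G, ∀ x y : G,
      (∀ i, (σ (g i * x)).trace = (σ (g i * y)).trace) → σ x = σ y := by
  classical
  rcases hG with hspan | hdiag
  · obtain ⟨t, hts, htspan, htli⟩ := exists_linearIndependent k (Set.range σ)
    rw [hspan] at htspan
    have : Fintype t := htli.setFinite.fintype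
    have hcard : Fintype.card t ≤ 4 := by
      refine htli.fintype_card_le_finrank.trans ?_
      rw [Module.finrank_matrix]
      simp
    choose u hu using fun z : t => hts z.2
    obtain ⟨e⟩ : Nonempty (t ↪ Fin 4) :=
      Function.Embedding.nonempty_of_card_le (hcard.trans_eq (Fintype.card_fin 4).symm)
    refine ⟨fun i => if h : ∃ z, e z = i then u h.choose else 1, fun x y hxy => ?_⟩
    have key : ∀ z : t, ((z : Matrix (Fin 2) (Fin 2) k) * (σ x - σ y)).trace = 0 := by
      intro z
      have h : ∃ w, e w = e z := ⟨z, rfl⟩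
      have hz := hxy (e z)
      simp only [dif_pos h, e.injective h.choose_spec, map_mul, hu z] at hz
      rw [mul_sub, Matrix.trace_sub, hz, sub_self]
    have hall : ∀ M : Matrix (Fin 2) (Fin 2) k, (M * (σ x - σ y)).trace = 0 := by
      intro M
      have hM : M ∈ Submodule.span k t := by rw [htspan]; trivial
      induction hM using Submodule.span_induction with
      | mem w hw => exact key ⟨w, hw⟩
      | zero => simp
      | add a b _ _ ha hb => rw [add_mul, Matrix.trace_add, ha, hb, add_zero]
      | smul c a _ ha => rw [smul_mul_assoc, Matrix.trace_smul, ha, smul_zero]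
    refine sub_eq_zero.1 (Matrix.ext fun i j => ?_)
    simpa [Matrix.trace_single_mul] using hall (Matrix.single j i 1)
  · by_cases hd : ∃ g, σ g 0 0 ≠ σ g 1 1
    · obtain ⟨g, hg⟩ := hd
      refine ⟨![1, g, 1, 1], fun x y hxy => ?_⟩
      have h1 := hxy 0
      have h2 := hxy 1
      simp [Matrix.trace_fin_two, Matrix.mul_apply, Fin.sum_univ_two, (hdiag g).1, (hdiag g).2]
        at h1 h2
      have h00 : σ x 0 0 = σ y 0 0 := by
        refine mul_left_cancel₀ (sub_ne_zero.2 hg) ?_
        linear_combination h2 - σ g 1 1 * h1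
      ext i j
      fin_cases i <;> fin_cases j
      · exact h00
      · simp [(hdiag x).1, (hdiag y).1]
      · simp [(hdiag x).2, (hdiag y).2]
      · simp only [Fin.mk_one]
        linear_combination h1 - h00
    · push Not at hd
      refine ⟨fun _ => 1, fun x y hxy => ?_⟩
      have h := hxy 0
      simp [Matrix.trace_fin_two, ← hd] at h
      have h00 : σ x 0 0 = σ y 0 0 := mul_left_cancel₀ h2 (by linear_combination h)
      ext i j
      fin_cases i <;> fin_cases j
      · exact h00
      · simp [(hdiag x).1, (hdiag y).1]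
      · simp [(hdiag x).2, (hdiag y).2]
      · simp only [Fin.mk_one]
        rw [← hd x, ← hd y, h00]

/-- A finite matrix group with few traces is small. -/
theorem card_le_of_few_traces [Fintype G] (σ : G →* Matrix (Fin 2) (Fin 2) k)
    (hinj : Function.Injective σ) (h2 : (2 : k) ≠ 0)
    (hG : Submodule.span k (Set.range σ) = ⊤ ∨ ∀ g, σ g 0 1 = 0 ∧ σ g 1 0 = 0)
    (Y : Finset k) (hbad : 8 * Nat.card {g : G // (σ g).trace ∉ Y} ≤ Fintype.card G) :
    Fintype.card G ≤ 2 * Y.card ^ 4 := by
  classical
  obtain ⟨g, hg⟩ := exists_four σ h2 hG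
  rw [Nat.card_eq_fintype_card, Fintype.card_subtype] at hbad
  set Bad := Finset.univ.filter (fun x : G => (σ x).trace ∉ Y) with hBad
  set Good := Finset.univ.filter (fun x : G => ∀ i, (σ (g i * x)).trace ∈ Y) with hGood
  have hsplit : Fintype.card G ≤ Good.card + 4 * Bad.card := by
    have hsub : (Finset.univ : Finset G) ⊆
        Good ∪ Finset.univ.biUnion fun i => Bad.image fun b => (g i)⁻¹ * b := by
      intro x _
      by_cases hx : x ∈ Good
      · exact Finset.mem_union_left _ hx
      · refine Finset.mem_union_right _ ?_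
        simp only [hGood, Finset.mem_filter, Finset.mem_univ, true_and, not_forall] at hx
        obtain ⟨i, hi⟩ := hx
        exact Finset.mem_biUnion.2 ⟨i, Finset.mem_univ _, Finset.mem_image.2
          ⟨g i * x, Finset.mem_filter.2 ⟨Finset.mem_univ _, hi⟩, inv_mul_cancel_left _ _⟩⟩
    refine (Finset.card_le_card hsub).trans ((Finset.card_union_le _ _).trans ?_)
    refine Nat.add_le_add_left (Finset.card_biUnion_le.trans ?_) _
    refine (Finset.sum_le_card_nsmul _ _ Bad.card fun i _ => Finset.card_image_le).trans ?_
    simp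
  have hgood : Good.card ≤ Y.card ^ 4 := by
    have h : Good.card ≤ (Fintype.piFinset fun _ : Fin 4 => Y).card := by
      refine Finset.card_le_card_of_injOn (fun x i => (σ (g i * x)).trace) (fun x hx => ?_)
        fun x _ y _ hxy => hinj (hg x y fun i => congrFun hxy i)
      exact Fintype.mem_piFinset.2 (Finset.mem_filter.1 hx).2
    simpa [Fintype.card_piFinset] using h
  omega

end Fermat.Agent.DeligneSerre
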