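import Mathlib.RingTheory.Nullstellensatz
import Mathlib.LinearAlgebra.Matrix.Charpoly.Eigs
import Mathlib.RingTheory.Polynomial.Cyclotomic.Basic
import Mathlib.Topology.Algebra.Polynomial
import Fermat.Agent.DeligneSerre.AlgSeries

/-!
# Algebraic integers modulo infinitely many primes

An algebraic integer in primes over infinitely many rational primes vanishes; representations of
a finite group which exist modulo infinitely many primes exist over `ℂ`.
-/

set_option autoImplicit false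

noncomputable section

namespace Fermat.Agent.DeligneSerre

open Polynomial

/-- The ring of all algebraic integers. -/
abbrev ZBar : Type := integralClosure ℤ ℂ

theorem exists_maximal_above {ℓ : ℕ} (hℓ : ℓ.Prime) :
    ∃ I : Ideal ZBar, I.IsMaximal ∧ (ℓ : ZBar) ∈ I := by
  have hu : ¬ IsUnit (ℓ : ZBar) := by
    rintro ⟨u, hu⟩
    have h1 : (ℓ : ℂ) * ((↑u⁻¹ : ZBar) : ℂ) = 1 := by
      have := congrArg (fun z : ZBar => (z : ℂ)) u.mul_inv
      rw [hu] at this
      simpa using this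
    have hint : IsIntegral ℤ ((ℓ : ℚ)⁻¹) := by
      refine (isIntegral_algebraMap_iff (B := ℂ) (algebraMap ℚ ℂ).injective).1 ?_
      rw [map_inv₀, map_natCast, inv_eq_of_mul_eq_one_right h1]
      exact (↑u⁻¹ : ZBar).2
    obtain ⟨m, hm⟩ := IsIntegrallyClosed.isIntegral_iff.1 hint
    have hm' : ((ℓ : ℤ) * m : ℤ) = 1 := by
      have h2 : (ℓ : ℚ) * (m : ℚ) = 1 := by
        rw [show (m : ℚ) = algebraMap ℤ ℚ m from rfl, hm,
          mul_inv_cancel₀ (Nat.cast_ne_zero.2 hℓ.ne_zero)]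
      exact_mod_cast h2
    have h3 := Int.eq_one_of_mul_eq_one_right (Int.natCast_nonneg ℓ) hm'
    exact hℓ.one_lt.ne' (by exact_mod_cast h3)
  obtain ⟨I, hI, hle⟩ := Ideal.exists_le_maximal (Ideal.span {(ℓ : ZBar)})
    (by rwa [Ne, Ideal.span_singleton_eq_top])
  exact ⟨I, hI, hle (Ideal.mem_span_singleton_self _)⟩

theorem isIntegral_ringEquiv (σ : ℂ ≃+* ℂ) {x : ℂ} (hx : IsIntegral ℤ x) :
    IsIntegral ℤ (σ x) :=
  hx.map σ.toRingHom.toIntAlgHom

theorem finite_orbit_of_isIntegral {x : ℂ} (hx : IsIntegral ℤ x) :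
    {y : ℂ | ∃ σ : ℂ ≃+* ℂ, σ x = y}.Finite := by
  refine ((minpoly ℤ x).rootSet_finite ℂ).subset ?_
  rintro y ⟨σ, rfl⟩
  rw [Polynomial.mem_rootSet]
  refine ⟨minpoly.ne_zero hx, ?_⟩
  have h := (minpoly ℤ x).aeval_algHom_apply σ.toRingHom.toIntAlgHom x
  rw [minpoly.aeval, map_zero] at h
  exact h

/-- Every element of a proper ideal forces a non-zero integer into it, uniformly in the ideal. -/
theorem exists_int_ne_zero_mem {x : ZBar} (hx : x ≠ 0) :
    ∃ c : ℤ, c ≠ 0 ∧ ∀ I : Ideal ZBar, x ∈ I → (c : ZBar) ∈ I := by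
  have hxi : IsIntegral ℤ (x : ℂ) := x.2
  refine ⟨(minpoly ℤ (x : ℂ)).coeff 0, ?_, fun I hI => ?_⟩
  · intro h0
    have h1 := minpoly.coeff_zero_ne_zero (A := ℚ) (x := (x : ℂ)) hxi.tower_top (by simpa using hx)
    rw [minpoly.isIntegrallyClosed_eq_field_fractions' ℚ hxi, Polynomial.coeff_map, h0, map_zero]
      at h1
    exact h1 rfl
  · have h0 : Polynomial.aeval x (minpoly ℤ (x : ℂ)) = 0 := by
      refine Subtype.ext ?_
      exact (Polynomial.aeval_subalgebra_coe _ (integralClosure ℤ ℂ) x).trans (minpoly.aeval _ _)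
    rw [← Polynomial.X_mul_divX_add (minpoly ℤ (x : ℂ)), map_add, map_mul, Polynomial.aeval_X,
      Polynomial.aeval_C, add_eq_zero_iff_eq_neg'] at h0
    rw [show (algebraMap ℤ ZBar) ((minpoly ℤ (x : ℂ)).coeff 0)
      = ((minpoly ℤ (x : ℂ)).coeff 0 : ZBar) from eq_intCast _ _] at h0
    rw [h0]
    exact I.neg_mem (I.mul_mem_right _ hI)

/-- An algebraic integer in proper ideals over infinitely many primes is zero. -/
theorem eq_zero_of_mem_infinite {x : ZBar} {L : Set ℕ} (hL : L.Infinite)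
    (h : ∀ ℓ ∈ L, ℓ.Prime ∧ ∃ I : Ideal ZBar, I ≠ ⊤ ∧ (ℓ : ZBar) ∈ I ∧ x ∈ I) : x = 0 := by
  by_contra hx
  obtain ⟨c, hc, hcI⟩ := exists_int_ne_zero_mem hx
  obtain ⟨ℓ, hℓ, hlt⟩ := hL.exists_gt c.natAbs
  obtain ⟨hp, I, hI, hℓI, hxI⟩ := h ℓ hℓ
  apply hI
  rw [Ideal.eq_top_iff_one]
  have hcop : IsCoprime (ℓ : ℤ) c := by
    rw [Int.isCoprime_iff_nat_coprime, Int.natAbs_natCast, hp.coprime_iff_not_dvd]
    exact fun hd => (Nat.le_of_dvd (Int.natAbs_pos.2 hc) hd).not_gt hlt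
  obtain ⟨u, v, huv⟩ := hcop
  have h1 := congrArg (Int.cast : ℤ → ZBar) huv
  push_cast at h1
  rw [← h1]
  exact I.add_mem (I.mul_mem_left _ hℓI) (I.mul_mem_left _ (hcI I hxI))

/-- Equality from congruences modulo infinitely many primes. -/
theorem eq_of_map_eq_infinite {x y : ZBar} {L : Set ℕ} (hL : L.Infinite)
    (h : ∀ ℓ ∈ L, ℓ.Prime ∧ ∃ (k : Type) (_ : Field k) (φ : ZBar →+* k),
      φ ℓ = 0 ∧ φ x = φ y) : x = y := by
  refine sub_eq_zero.1 (eq_zero_of_mem_infinite hL fun ℓ hℓ => ?_)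
  obtain ⟨hp, k, _, φ, h0, he⟩ := h ℓ hℓ
  exact ⟨hp, RingHom.ker φ, RingHom.ker_ne_top φ, h0, by rw [RingHom.mem_ker, map_sub, he, sub_self]⟩

/-! ### Bounded algebraic integers -/

theorem finite_bounded_orbit (B : ℝ) (d : ℕ) :
    {x : ℂ | IsIntegral ℤ x ∧ {y : ℂ | ∃ σ : ℂ ≃+* ℂ, σ x = y}.ncard ≤ d ∧
      ∀ σ : ℂ ≃+* ℂ, ‖σ x‖ ≤ B}.Finite := by
  classical
  set M : ℤ := ⌈max B 1 ^ d * d.choose (d / 2)⌉
  let poly : (Fin (d + 1) → Set.Icc (-M) M) → ℤ[X] := fun c => ∑ i, C (c i : ℤ) * X ^ (i : ℕ)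
  refine (Set.finite_iUnion fun c => (poly c).rootSet_finite ℂ).subset ?_
  rintro x ⟨hxi, hcard, hB⟩
  have horb := finite_orbit_of_isIntegral hxi
  obtain ⟨P, hP⟩ := exists_monic_of_finite_orbit horb
  have hmem : ∀ y ∈ horb.toFinset, IsIntegral ℤ y ∧ ‖y‖ ≤ B := by
    intro y hy
    obtain ⟨σ, rfl⟩ := horb.mem_toFinset.1 hy
    exact ⟨isIntegral_ringEquiv σ hxi, hB σ⟩
  have hmonic : P.Monic := Polynomial.monic_of_injective (algebraMap ℚ ℂ).injective
    (hP ▸ monic_prod_of_monic _ _ fun y _ => monic_X_sub_C y)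
  have hdeg : P.natDegree = horb.toFinset.card := by
    rw [← natDegree_map (algebraMap ℚ ℂ), hP, natDegree_finsetProd_X_sub_C_eq_card]
  have hcard' : horb.toFinset.card ≤ d := by
    rwa [← Set.ncard_eq_toFinset_card _ horb]
  have hcoeff : ∀ i, ∃ m : ℤ, (m : ℚ) = P.coeff i ∧ m ∈ Set.Icc (-M) M := by
    intro i
    have hlift : P.map (algebraMap ℚ ℂ) ∈ lifts (algebraMap ZBar ℂ) := by
      rw [hP]
      refine Subsemiring.prod_mem _ fun y hy => ?_
      exact ⟨X - C (⟨y, (hmem y hy).1⟩ : ZBar), by simp⟩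
    obtain ⟨z, hz⟩ := (lifts_iff_coeff_lifts _).1 hlift i
    rw [coeff_map] at hz
    have hint : IsIntegral ℤ (P.coeff i) :=
      (isIntegral_algebraMap_iff (B := ℂ) (algebraMap ℚ ℂ).injective).1 (hz ▸ z.2)
    obtain ⟨m, hm⟩ := IsIntegrallyClosed.isIntegral_iff.1 hint
    have hm' : (m : ℚ) = P.coeff i := by rw [← hm]; simp
    have hbd : ‖(P.map (algebraMap ℚ ℂ)).coeff i‖ ≤ max B 1 ^ d * d.choose (d / 2) := by
      refine coeff_bdd_of_roots_le (algebraMap ℚ ℂ) hmonic (IsAlgClosed.splits _)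
        (hdeg.le.trans hcard') (fun y hy => ?_) i
      rw [hP, roots_prod_X_sub_C] at hy
      exact (hmem y hy).2
    rw [coeff_map, ← hm', map_intCast, Complex.norm_intCast] at hbd
    have habs : |m| ≤ M := by
      have h2 : (|m| : ℝ) ≤ (M : ℝ) := hbd.trans (Int.le_ceil _)
      exact_mod_cast h2
    exact ⟨m, hm', abs_le.1 habs⟩
  choose m hm hmIcc using hcoeff
  refine Set.mem_iUnion.2 ⟨fun i => ⟨m i, hmIcc i⟩, ?_⟩
  have hpoly : (poly fun i => ⟨m i, hmIcc i⟩).map (algebraMap ℤ ℚ) = P := by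
    conv_rhs => rw [P.as_sum_range' (d + 1) (by omega), ← Fin.sum_univ_eq_sum_range]
    simp only [poly, Polynomial.map_sum,
      C_mul_X_pow_eq_monomial]
    exact Finset.sum_congr rfl fun i _ => by simp [hm]
  rw [mem_rootSet]
  refine ⟨fun h0 => hmonic.ne_zero (by rw [← hpoly, h0, Polynomial.map_zero]), ?_⟩
  rw [← aeval_map_algebraMap ℚ x, hpoly, ← eval_map_algebraMap, hP, eval_prod]
  exact Finset.prod_eq_zero (horb.mem_toFinset.2 ⟨RingEquiv.refl ℂ, rfl⟩) (by simp)

/-! ### Matrices of finite order -/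

/-- The sums of two `m`-th roots of unity. -/
def rootSums (m : ℕ) : Set ZBar := {x | ∃ z w : ZBar, z ^ m = 1 ∧ w ^ m = 1 ∧ x = z + w}

theorem finite_rootSums {m : ℕ} (hm : m ≠ 0) : (rootSums m).Finite := by
  classical
  refine (((nthRootsFinset m (1 : ZBar)) ×ˢ (nthRootsFinset m (1 : ZBar))).image
    fun p => p.1 + p.2).finite_toSet.subset ?_
  rintro x ⟨z, w, hz, hw, rfl⟩
  simp only [Finset.coe_image, Set.mem_image, Finset.mem_coe, Finset.mem_product]
  exact ⟨(z, w), ⟨(mem_nthRootsFinset (Nat.pos_of_ne_zero hm) _).2 hz,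
    (mem_nthRootsFinset (Nat.pos_of_ne_zero hm) _).2 hw⟩, rfl⟩

variable {k : Type*} [Field k]

theorem exists_root_lift (φ : ZBar →+* k) {m : ℕ} (hm : m ≠ 0) {a : k} (ha : a ^ m = 1) :
    ∃ z : ZBar, z ^ m = 1 ∧ φ z = a := by
  have hζ := Complex.isPrimitiveRoot_exp m hm
  let ζ : ZBar := ⟨_, IsIntegral.of_pow (Nat.pos_of_ne_zero hm)
    (hζ.pow_eq_one.symm ▸ isIntegral_one)⟩
  have hζ' : IsPrimitiveRoot ζ m :=
    IsPrimitiveRoot.of_map_of_injective (f := algebraMap ZBar ℂ) hζ Subtype.val_injective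
  have h := congrArg (Polynomial.eval₂ φ a)
    (Polynomial.X_pow_sub_one_eq_prod (Nat.pos_of_ne_zero hm) hζ')
  rw [eval₂_sub, eval₂_pow, eval₂_X, eval₂_one, ha, sub_self, eval₂_finsetProd, eq_comm,
    Finset.prod_eq_zero_iff] at h
  obtain ⟨z, hz, h0⟩ := h
  rw [eval₂_sub, eval₂_X, eval₂_C, sub_eq_zero] at h0
  exact ⟨z, (mem_nthRootsFinset (Nat.pos_of_ne_zero hm) _).1 hz, h0.symm⟩

theorem exists_trace_eq_of_pow_eq_one (φ : ZBar →+* k) {U : Matrix (Fin 2) (Fin 2) k} {m : ℕ}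
    (hm : m ≠ 0) (hU : U ^ m = 1) : ∃ x ∈ rootSums m, U.trace = φ x := by
  classical
  let ι := algebraMap k (AlgebraicClosure k)
  set U' := U.map ι with hU'def
  have hU' : U' ^ m = 1 := by
    rw [hU'def, show U.map ι = ι.mapMatrix U from rfl, ← map_pow, hU, map_one]
  have hroot : ∀ a ∈ U'.charpoly.roots, a ^ m = 1 := by
    intro a ha
    have hdet : (Matrix.scalar (Fin 2) a - U').det = 0 := by
      rw [← Matrix.eval_charpoly]
      exact (mem_roots'.1 ha).2
    have hcomm : Commute (Matrix.scalar (Fin 2) a) U' :=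
      Matrix.scalar_commute _ (fun _ => Commute.all _ _) _
    have h2 := congrArg Matrix.det (hcomm.geom_sum₂_mul m)
    rw [Matrix.det_mul, hdet, mul_zero, hU', ← map_pow, ← map_one (Matrix.scalar (Fin 2)),
      ← map_sub, Matrix.scalar_apply, Matrix.det_diagonal] at h2
    simpa [sub_eq_zero] using h2.symm
  have hcard : U'.charpoly.roots.card = 2 := by
    rw [← (IsAlgClosed.splits U'.charpoly).natDegree_eq_card_roots,
      Matrix.charpoly_natDegree_eq_dim, Fintype.card_fin]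
  obtain ⟨a, b, hab⟩ := Multiset.card_eq_two.1 hcard
  obtain ⟨z, hz, hza⟩ := exists_root_lift (ι.comp φ) hm (hroot a (by simp [hab]))
  obtain ⟨w, hw, hwb⟩ := exists_root_lift (ι.comp φ) hm (hroot b (by simp [hab]))
  refine ⟨z + w, ⟨z, w, hz, hw, rfl⟩, ι.injective ?_⟩
  have htr := Matrix.trace_eq_sum_roots_charpoly U'
  rw [hab] at htr
  rw [show ι U.trace = U'.trace from AddMonoidHom.map_trace ι.toAddMonoidHom U, htr]
  simp [← hza, ← hwb]

/-- A matrix of order prime to the characteristic with characteristic polynomial `(X - 1)²` is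
the identity. -/
theorem eq_one_of_unipotent {U : Matrix (Fin 2) (Fin 2) k} {m : ℕ} (hm : (m : k) ≠ 0)
    (hU : U ^ m = 1) (htr : U.trace = 2) (hdet : U.det = 1) : U = 1 := by
  obtain ⟨V, rfl⟩ : ∃ V, U = 1 + V := ⟨U - 1, by abel⟩
  have hsq : V * V = 0 := by
    rw [Matrix.det_fin_two] at hdet
    simp [Matrix.trace_fin_two] at htr hdet
    ext i j
    rw [Matrix.mul_apply, Fin.sum_univ_two]
    fin_cases i <;> fin_cases j <;> simp
    · linear_combination (V 0 0 + 1) * htr - hdet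
    · linear_combination V 0 1 * htr
    · linear_combination V 1 0 * htr
    · linear_combination (V 1 1 + 1) * htr - hdet
  have hpow : ∀ i : ℕ, (1 + V) ^ i = 1 + (i : k) • V := by
    intro i
    induction i with
    | zero => simp
    | succ i ih =>
      rw [pow_succ, ih, add_mul, one_mul, mul_add, mul_one, smul_mul_assoc, hsq, smul_zero,
        add_zero, Nat.cast_succ, add_smul, one_smul]
      abel
  rw [hpow, add_eq_left, smul_eq_zero] at hU
  rw [hU.resolve_left hm, add_zero]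

end Fermat.Agent.DeligneSerre

namespace Fermat.Agent.DeligneSerre

open MvPolynomial

/-! ### Lifting representations of finite groups -/

variable {G : Type*} [Group G] [Finite G]

/-- A finite group with a two-dimensional representation of given traces and determinants modulo
infinitely many primes has one over `ℂ`. -/
theorem exists_rep_of_residual (t d : G → ZBar) {L : Set ℕ} (hL : L.Infinite)
    (h : ∀ ℓ ∈ L, ℓ.Prime ∧ ∃ (k : Type) (_ : Field k) (φ : ZBar →+* k)
      (σ : G →* Matrix (Fin 2) (Fin 2) k), φ ℓ = 0 ∧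
        ∀ g, (σ g).trace = φ (t g) ∧ (σ g).det = φ (d g)) :
    ∃ σ : G →* GL (Fin 2) ℂ, ∀ g, ((σ g : GL (Fin 2) ℂ) : Matrix (Fin 2) (Fin 2) ℂ).trace = t g ∧
      ((σ g : GL (Fin 2) ℂ) : Matrix (Fin 2) (Fin 2) ℂ).det = d g := by
  classical
  let K := algebraicClosure ℚ ℂ
  have : IsAlgClosed K := (algebraicClosure.isAlgClosure ℚ ℂ).isAlgClosed
  let ι : ZBar →+* K :=
    (algebraMap ZBar ℂ).codRestrict K fun z =>
      (mem_algebraicClosure_iff' (F := ℚ)).2 z.2.tower_top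
  let R := MvPolynomial (G × Fin 2 × Fin 2) ZBar
  let T := MvPolynomial (G × Fin 2 × Fin 2) K
  let U : G → Matrix (Fin 2) (Fin 2) R := fun g => Matrix.of fun i j => X (g, i, j)
  let rels : Set R := {r | (∃ i j, r = U 1 i j - (1 : Matrix (Fin 2) (Fin 2) R) i j) ∨
    (∃ g g' i j, r = U (g * g') i j - (U g * U g') i j) ∨
    (∃ g, r = (U g).trace - C (t g)) ∨ ∃ g, r = (U g).det - C (d g)}
  let J := Ideal.span rels
  let f : R →+* T := MvPolynomial.map ι
  have hf : Function.Injective f := map_injective ι fun a b hab =>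
    Subtype.ext (congrArg (fun z : K => (z : ℂ)) hab)
  have hden : ∀ q : T, ∃ n : ℕ, n ≠ 0 ∧ ∃ q₀ : R, f q₀ = (n : T) * q := by
    intro q
    induction q using MvPolynomial.induction_on with
    | C a =>
      obtain ⟨n, hn, hint⟩ := exists_nat_mul_isIntegral
        (x := (a : ℂ)) (isAlgebraic_iff_isIntegral.2 ((mem_algebraicClosure_iff' (F := ℚ)).1 a.2))
      refine ⟨n, hn, C ⟨_, hint⟩, ?_⟩
      rw [← map_natCast (C : K →+* T), ← map_mul]
      refine (MvPolynomial.map_C ι _).trans (congrArg C (Subtype.ext ?_))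
      show (n : ℂ) * (a : ℂ) = (((n : K) * a : K) : ℂ)
      simp
    | add p q hp hq =>
      obtain ⟨n, hn, p₀, hp₀⟩ := hp
      obtain ⟨n', hn', q₀, hq₀⟩ := hq
      exact ⟨n * n', mul_ne_zero hn hn', (n' : R) * p₀ + (n : R) * q₀, by
        rw [map_add, map_mul, map_mul, hp₀, hq₀, map_natCast, map_natCast]; push_cast; ring⟩
    | mul_X p v hp =>
      obtain ⟨n, hn, p₀, hp₀⟩ := hp
      exact ⟨n, hn, p₀ * X v, by
        rw [map_mul, hp₀, show f (X v) = (X v : T) from MvPolynomial.map_X ι v, mul_assoc]⟩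
  have hT : ∀ q ∈ Ideal.map f J, ∃ n : ℕ, n ≠ 0 ∧ ∃ y ∈ J, f y = (n : T) * q := by
    intro q hq
    rw [Ideal.map_span] at hq
    induction hq using Submodule.span_induction with
    | mem x hx =>
      obtain ⟨r, hr, rfl⟩ := hx
      exact ⟨1, one_ne_zero, r, Ideal.subset_span hr, by simp⟩
    | zero => exact ⟨1, one_ne_zero, 0, J.zero_mem, by simp⟩
    | add p q _ _ hp hq =>
      obtain ⟨n, hn, p₀, hpJ, hp₀⟩ := hp
      obtain ⟨n', hn', q₀, hqJ, hq₀⟩ := hq
      exact ⟨n * n', mul_ne_zero hn hn', (n' : R) * p₀ + (n : R) * q₀,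
        J.add_mem (J.mul_mem_left _ hpJ) (J.mul_mem_left _ hqJ), by
          rw [map_add, map_mul, map_mul, hp₀, hq₀, map_natCast, map_natCast]; push_cast; ring⟩
    | smul c p _ hp =>
      obtain ⟨n, hn, p₀, hpJ, hp₀⟩ := hp
      obtain ⟨n', hn', c₀, hc₀⟩ := hden c
      exact ⟨n' * n, mul_ne_zero hn' hn, c₀ * p₀, J.mul_mem_left _ hpJ, by
        rw [map_mul, hc₀, hp₀, smul_eq_mul]; push_cast; ring⟩
  have hne : Ideal.map f J ≠ ⊤ := by
    intro htop
    obtain ⟨n, hn, y, hy, hy'⟩ := hT 1 (htop ▸ trivial)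
    rw [mul_one, ← map_natCast f] at hy'
    have hnJ : (n : R) ∈ J := hf hy' ▸ hy
    have hz : (n : ZBar) = 0 := by
      refine eq_zero_of_mem_infinite hL fun ℓ hℓ => ?_
      obtain ⟨hp, k, _, φ, σ, h0, hσ⟩ := h ℓ hℓ
      refine ⟨hp, RingHom.ker φ, RingHom.ker_ne_top φ, h0, ?_⟩
      let ev : R →+* k := eval₂Hom φ fun v => σ v.1 v.2.1 v.2.2
      have hevU : ∀ g, ev.mapMatrix (U g) = σ g := fun g => by
        ext i j
        exact eval₂Hom_X' φ (fun v : G × Fin 2 × Fin 2 => σ v.1 v.2.1 v.2.2) (g, i, j)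
      have hJ : J ≤ RingHom.ker ev := by
        refine Ideal.span_le.2 ?_
        rintro r (⟨i, j, rfl⟩ | ⟨g, g', i, j, rfl⟩ | ⟨g, rfl⟩ | ⟨g, rfl⟩)
        · show ev (_ - _) = 0
          rw [map_sub, show ev (U 1 i j) = ev.mapMatrix (U 1) i j from rfl,
            show ev ((1 : Matrix (Fin 2) (Fin 2) R) i j) = ev.mapMatrix 1 i j from rfl,
            hevU, map_one, map_one, sub_self]
        · show ev (_ - _) = 0
          rw [map_sub, show ev (U (g * g') i j) = ev.mapMatrix (U (g * g')) i j from rfl,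
            show ev ((U g * U g') i j) = ev.mapMatrix (U g * U g') i j from rfl,
            map_mul, hevU, hevU, hevU, map_mul, sub_self]
        · show ev (_ - _) = 0
          rw [map_sub, show ev (U g).trace = (ev.mapMatrix (U g)).trace from
            AddMonoidHom.map_trace ev.toAddMonoidHom _, hevU, (hσ g).1]
          exact sub_eq_zero.2 (eval₂Hom_C φ _ _).symm
        · show ev (_ - _) = 0
          rw [map_sub, RingHom.map_det, hevU, (hσ g).2]
          exact sub_eq_zero.2 (eval₂Hom_C φ _ _).symm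
      rw [RingHom.mem_ker, ← RingHom.mem_ker.1 (hJ hnJ), map_natCast, map_natCast]
    exact hn (by exact_mod_cast congrArg (fun z : ZBar => (z : ℂ)) hz)
  obtain ⟨x, hx⟩ : (zeroLocus K (Ideal.map f J)).Nonempty := by
    rw [Set.nonempty_iff_ne_empty]
    intro he
    apply hne
    have := vanishingIdeal_zeroLocus_eq_radical (K := K) (Ideal.map f J)
    rw [he, vanishingIdeal_empty] at this
    exact Ideal.radical_eq_top.1 this.symm
  let ev : R →+* ℂ := (algebraMap K ℂ).comp ((MvPolynomial.aeval x).toRingHom.comp f)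
  have hev : ∀ r ∈ J, ev r = 0 := fun r hr => by
    have h0 := hx (f r) (Ideal.mem_map_of_mem f hr)
    simp only [ev, RingHom.comp_apply]
    exact (congrArg (algebraMap K ℂ) h0).trans (map_zero _)
  have hev' : ∀ {a b : R}, a - b ∈ J → ev a = ev b := fun hab =>
    sub_eq_zero.1 (by rw [← map_sub]; exact hev _ hab)
  have hevC : ∀ z : ZBar, ev (C z) = (z : ℂ) := fun z => by
    simp only [ev, f, RingHom.comp_apply]
    rw [AlgHom.toRingHom_eq_coe, RingHom.coe_coe]
    erw [MvPolynomial.map_C, MvPolynomial.aeval_C]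
    rfl
  let σ : G →* Matrix (Fin 2) (Fin 2) ℂ :=
    { toFun := fun g => ev.mapMatrix (U g)
      map_one' := by
        rw [← map_one ev.mapMatrix]
        ext i j
        exact hev' (Ideal.subset_span (Or.inl ⟨i, j, rfl⟩))
      map_mul' := fun g g' => by
        rw [← map_mul]
        ext i j
        exact hev' (Ideal.subset_span (Or.inr (Or.inl ⟨g, g', i, j, rfl⟩))) }
  refine ⟨σ.toHomUnits, fun g => ⟨?_, ?_⟩⟩
  · show (ev.mapMatrix (U g)).trace = _
    rw [← hevC, ← hev' (Ideal.subset_span (Or.inr (Or.inr (Or.inl ⟨g, rfl⟩))))]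
    exact (AddMonoidHom.map_trace ev.toAddMonoidHom _).symm
  · show (ev.mapMatrix (U g)).det = _
    rw [← hevC, ← hev' (Ideal.subset_span (Or.inr (Or.inr (Or.inr ⟨g, rfl⟩))))]
    exact (RingHom.map_det ev _).symm

end Fermat.Agent.DeligneSerre
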