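import Fermat.Agent.DeligneSerre.PeriodsOps
import Fermat.Agent.DeligneSerre.Criterion

/-!
# Interface: the Galois action on homomorphisms on `Γ_{±1}(M)` modulo `ℓ`

`HasGalMatrix M ℓ` says that the matrices of the good operators modulo `ℓ` commute with a
representation of the Galois group which is unramified outside `M` and satisfies the congruence
relation at every prime `p ∤ M`.
-/

set_option autoImplicit false

noncomputable section

namespace Fermat.Agent.DeligneSerre

open Fermat.Agent.Arith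
open Fermat.Agent.RT.GammaH

variable (M : ℕ) [NeZero M] (ℓ : ℕ)

/-- The matrix of a good operator modulo `ℓ`. -/
def opMatMod (i : GoodOp M) : Matrix (Fin (homRank M)) (Fin (homRank M)) (ZMod ℓ) :=
  (opMat i).map (Int.cast : ℤ → ZMod ℓ)

/-- The unit of `ℤ/M` attached to a good prime. -/
def primeUnit (p : {p : ℕ // p.Prime ∧ ¬ p ∣ M}) : (ZMod M)ˣ :=
  ZMod.unitOfCoprime p.1 ((Nat.Prime.coprime_iff_not_dvd p.2.1).2 p.2.2)

/-- A Galois action with the congruence relation. -/
def HasGalMatrix : Prop :=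
  ∃ ρ : GQ →* Matrix (Fin (homRank M)) (Fin (homRank M)) (ZMod ℓ),
    GaloisFactorsThroughFiniteLevel ρ ∧ (∀ i σ, Commute (opMatMod M ℓ i) (ρ σ)) ∧
    ∀ (p : {p : ℕ // p.Prime ∧ ¬ p ∣ M}) (A : ValuationSubring QBar), A.LiesOverPrime p.1 →
      (∀ τ ∈ A.inertiaSubgroupIn ℚ, ρ τ = 1) ∧
      ∀ σ : GQ, A.IsFrobeniusAt σ p.1 →
        ρ σ + (p.1 : ZMod ℓ) • (opMatMod M ℓ (.inr (primeUnit M p)) * ρ σ⁻¹)
          = opMatMod M ℓ (.inl p)

end Fermat.Agent.DeligneSerre
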