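import Fermat.Agent.DeligneSerre.Cyclic
import Fermat.Agent.DeligneSerre.ModelAdjoin
import Fermat.Agent.DeligneSerre.ArchVal

/-!
# Reduction is injective on classes of functions with divisible divisor
-/

set_option autoImplicit false
set_option linter.unusedSectionVars false

noncomputable section

open scoped Classical
open Polynomial IsLocalRing AlgebraicCurve

namespace Fermat.Agent.DeligneSerre

open Fermat.Agent.EichlerShimura Fermat.Agent.FF

theorem isSeparable_of_discr_ne_zero {K B ι : Type*} [Field K] [Field B] [Algebra K B] [Fintype ι]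
    [DecidableEq ι] [Nonempty ι] (b : ι → B) (h : Algebra.discr K b ≠ 0) :
    Algebra.IsSeparable K B := by
  by_contra H
  refine h ?_
  rw [Algebra.discr_def]
  refine Matrix.det_eq_zero_of_row_eq_zero (Classical.arbitrary ι) fun j => ?_
  rw [Algebra.traceMatrix_apply, Algebra.traceForm_apply, Algebra.trace_eq_zero_of_not_isSeparable H,
    LinearMap.zero_apply]

/-- A binomial with a root and separable splits off a nontrivial idempotent. -/
theorem exists_idem_adjoinRoot {B : Type*} [Field B] {l : ℕ} (hl : 1 < l) (hlB : (l : B) ≠ 0) {u : B}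
    (hu : u ≠ 0) :
    ∃ e : AdjoinRoot (X ^ l - C (u ^ l) : B[X]), IsIdempotentElem e ∧ e ≠ 0 ∧ e ≠ 1 := by
  obtain ⟨Q, hQ⟩ : (X - C u) ∣ (X ^ l - C (u ^ l) : B[X]) :=
    dvd_iff_isRoot.mpr (by simp [IsRoot.def])
  have hsep : (X ^ l - C (u ^ l) : B[X]).Separable :=
    separable_X_pow_sub_C _ hlB (pow_ne_zero _ hu)
  obtain ⟨a, b, hab⟩ := (hQ ▸ hsep).isCoprime
  have hQd : Q.natDegree = l - 1 := by
    have h1 := congrArg natDegree hQ
    rw [natDegree_X_pow_sub_C, natDegree_mul (X_sub_C_ne_zero u) ?_, natDegree_X_sub_C] at h1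
    · omega
    · rintro rfl
      rw [mul_zero] at hQ
      exact X_pow_sub_C_ne_zero (by omega : 0 < l) _ hQ
  refine ⟨AdjoinRoot.mk _ (a * (X - C u)), ?_, fun h => ?_, fun h => ?_⟩
  · show AdjoinRoot.mk _ _ * AdjoinRoot.mk _ _ = _
    rw [← map_mul, AdjoinRoot.mk_eq_mk, hQ]
    exact ⟨-(a * b), by linear_combination (a * (X - C u)) * hab⟩
  · rw [AdjoinRoot.mk_eq_zero, hQ] at h
    have h1 : Q ∣ 1 := hab ▸ dvd_add ((dvd_mul_left Q _).trans h) (dvd_mul_left Q b)
    have := natDegree_le_of_dvd h1 one_ne_zero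
    rw [natDegree_one] at this
    omega
  · rw [← map_one (AdjoinRoot.mk _), AdjoinRoot.mk_eq_mk, hQ] at h
    have h1 : (X - C u) ∣ 1 := by
      have h2 := dvd_sub (dvd_mul_left (X - C u) a) ((dvd_mul_right (X - C u) Q).trans h)
      rwa [sub_sub_cancel] at h2
    exact not_isUnit_X_sub_C u (isUnit_of_dvd_one h1)

variable {L : Type*} [Field L] [IsAlgClosed L] [CharZero L] {A : ValuationSubring L}
  [IsAlgClosed (Kappa A)] {ι : Type*} [Fintype ι] [DecidableEq ι]
variable {E : Type*} [Field E] [Algebra (RatFunc L) E] [Algebra L E] [IsScalarTower L (RatFunc L) E]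
  [FiniteDimensional (RatFunc L) E] [IsFunctionField L E]
variable {Eb : Type*} [Field Eb] [Algebra (RatFunc (Kappa A)) Eb]

/-- On a curve with good reduction, a function with `l`-divisible divisor whose reduction is an
`l`-th power is an `l`-th power. -/
theorem exists_root_of_red_eq_pow (M : Model A ι E Eb) (harch : IsArchVal A) {x : E}
    (hx : algebraMap (RatFunc L) E RatFunc.X = x) {N : ℕ} (hN : N ≠ 0)
    (h0 : ∀ P : Place L E, 0 < P.ord x → P.ord x ∣ 3)
    (h1728 : ∀ P : Place L E, 0 < P.ord (x - algebraMap L E 1728) →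
      P.ord (x - algebraMap L E 1728) ∣ 2)
    (hgen : ∀ a : L, a ≠ 0 → a ≠ 1728 → ∀ P : Place L E, 0 < P.ord (x - algebraMap L E a) →
      P.ord (x - algebraMap L E a) ∣ 1)
    (hpole : ∀ P : Place L E, P.ord x < 0 → P.ord x ∣ (N : ℤ))
    {l : ℕ} (hlp : l.Prime) (hlA : (l : Kappa A) ≠ 0) (hS : M.S) (u : Eb)
    (hred : M.red hS = u ^ l) (hu : u ≠ 0) (hd : ∀ P : Place L E, (l : ℤ) ∣ P.ord (hS : E)) :
    ∃ g : E, g ^ l = hS := by
  by_contra! hcon
  have : Fact l.Prime := ⟨hlp⟩
  have : Fact (Irreducible (X ^ l - C (hS : E) : E[X])) :=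
    ⟨X_pow_sub_C_irreducible_of_prime hlp hcon⟩
  have : Nonempty ι := by
    by_contra hne
    rw [not_nonempty_iff] at hne
    exact one_ne_zero (M.bb.ext_elem (x := (1 : Eb)) (y := 0) fun i => hne.elim i)
  have : Algebra.IsSeparable (RatFunc (Kappa A)) Eb := isSeparable_of_discr_ne_zero _ M.disc_ne
  have : Nontrivial M.S := M.red.domain_nontrivial
  have hlB : (l : Eb) ≠ 0 := by
    rw [← map_natCast (algebraMap (RatFunc (Kappa A)) Eb), ← map_natCast
      (algebraMap (Kappa A) (RatFunc (Kappa A))), _root_.map_ne_zero, _root_.map_ne_zero]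
    exact hlA
  -- the extension
  let Φ : M.S[X] := X ^ l - C hS
  have hm : Φ.Monic := monic_X_pow_sub_C _ hlp.ne_zero
  have hn : Φ.natDegree = l := natDegree_X_pow_sub_C
  have hmE : (X ^ l - C (hS : E) : E[X]).Monic := monic_X_pow_sub_C _ hlp.ne_zero
  let b1 : Module.Basis (Fin l) E (AdjoinRoot (X ^ l - C (hS : E) : E[X])) :=
    (AdjoinRoot.powerBasis' hmE).basis.reindex (finCongr natDegree_X_pow_sub_C)
  have hb1 : ∀ i : Fin l, b1 i = AdjoinRoot.root (X ^ l - C (hS : E) : E[X]) ^ (i : ℕ) := fun i => by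
    simp only [b1, Module.Basis.reindex_apply, PowerBasis.basis_eq_pow, AdjoinRoot.powerBasis'_gen]
    rfl
  have : FiniteDimensional E (AdjoinRoot (X ^ l - C (hS : E) : E[X])) := Module.Finite.of_basis b1
  have : IsScalarTower L (RatFunc L) (AdjoinRoot (X ^ l - C (hS : E) : E[X])) :=
    IsScalarTower.of_algebraMap_eq fun c => by
      rw [IsScalarTower.algebraMap_apply L E, IsScalarTower.algebraMap_apply (RatFunc L) E,
        ← IsScalarTower.algebraMap_apply L (RatFunc L) E]
  have : FiniteDimensional (RatFunc L) (AdjoinRoot (X ^ l - C (hS : E) : E[X])) :=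
    Module.Finite.trans E _
  have := isFunctionField_extension L E (AdjoinRoot (X ^ l - C (hS : E) : E[X]))
  have hroot : evU M (AdjoinRoot.root (X ^ l - C (hS : E) : E[X])) Φ = 0 := by
    simp [Φ, evU, root_pow_eq]
  have hΦ : Φ.map M.red = X ^ l - C (u ^ l) := by simp [Φ, hred]
  have hsep : (Φ.map M.red).Separable := by
    rw [hΦ]; exact separable_X_pow_sub_C _ hlB (pow_ne_zero _ hu)
  let M2 := adjoinModel hb1 hm hn hroot hsep
  have hord : ∀ (w : Place L (AdjoinRoot (X ^ l - C (hS : E) : E[X]))) (f : E),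
      w.ord (algebraMap E _ f) = (w.restrict E).ord f := fun w f => by
    rw [w.ord_restrict, ramificationIndex_root_eq_one (Nat.cast_ne_zero.mpr hlp.ne_zero) hd w,
      Nat.cast_one, one_mul]
  have hordsub : ∀ (w : Place L (AdjoinRoot (X ^ l - C (hS : E) : E[X]))) (a : L),
      w.ord (algebraMap E _ x - algebraMap L _ a) = (w.restrict E).ord (x - algebraMap L E a) :=
    fun w a => by rw [← hord, map_sub, ← IsScalarTower.algebraMap_apply]
  have : Nontrivial (AdjoinRoot (Φ.map M.red)) := AdjoinRoot.nontrivial _ (by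
    rw [degree_eq_natDegree (hm.map M.red).ne_zero, hm.natDegree_map, hn]
    exact_mod_cast hlp.ne_zero)
  have key : ∀ e : AdjoinRoot (Φ.map M.red), IsIdempotentElem e → e = 0 ∨ e = 1 := fun e he =>
    idem_eq_zero_or_one_of_ord M2 harch (x := algebraMap E _ x)
      (by rw [IsScalarTower.algebraMap_apply (RatFunc L) E, hx]) hN
      (fun w hw => by rw [hord] at hw ⊢; exact h0 _ hw)
      (fun w hw => by rw [hordsub] at hw ⊢; exact h1728 _ hw)
      (fun a ha ha' w hw => by rw [hordsub] at hw ⊢; exact hgen a ha ha' _ hw)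
      (fun w hw => by rw [hord] at hw ⊢; exact hpole _ hw) he
  rw [hΦ] at key
  obtain ⟨e, he, he0, he1⟩ := exists_idem_adjoinRoot hlp.one_lt hlB hu
  exact (key e he).elim he0 he1

end Fermat.Agent.DeligneSerre
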