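import Fermat.Agent.RT.GammaH.Hecke
import Fermat.Agent.Gamma0.Structure

/-!
# Hecke operators on `Γ_H` as integral matrices

`G = Γ_{±1}(M)`; a basis of the homomorphisms killing elliptic and parabolic elements turns the
good Hecke and diamond operators into commuting integral matrices, uniformly in the coefficients.
-/

set_option autoImplicit false

noncomputable section

namespace Fermat.Agent.DeligneSerre

open CongruenceSubgroup Matrix.SpecialLinearGroup
open Fermat.Agent.RT.GammaH Fermat.Agent.Gamma0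
open scoped MatrixGroups

variable {Γ' Γ : Subgroup SL(2, ℤ)} {A : Type*} [AddCommGroup A] {R : Type*} [Semiring R]
  [Module R A]

/-- Coset operators preserve vanishing at elliptic and parabolic elements. -/
theorem opOf_mem_ellParHoms {ι : Type} [Fintype ι] {rep : ι → GLR} (h : Admissible Γ' Γ rep)
    (hdet : ∀ i, 0 < (rep i).det.val) (hinj : ∀ i j, rep i * (rep j)⁻¹ ∈ img Γ' → i = j)
    {φ : Additive Γ' →+ A} (hφ : φ ∈ ellParHoms Γ' A) : opOf h R φ ∈ ellParHoms Γ A := by
  have h' := h
  choose σ hσ using h'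
  choose c hc using fun (γ : Γ) i => exists_of_mem_img ((hσ γ).2 i)
  let S : Periods.HeckeSystem Γ' Γ ι :=
    { rep := rep
      det_pos := hdet
      perm := σ
      cocycle := c
      spec := fun γ i => by rw [hc, inv_mul_cancel_right]
      unique := fun i j γ he => hinj i j (by
        rw [he, mul_inv_cancel_right]
        exact mapGL_mem_img.2 γ.2) }
  have hS : opOf (A := A) h R = S.op R := opOf_heckeSystem S
  rw [hS]
  exact fun γ hγ => S.apply_eq_zero_of_trace_sq_le hφ γ hγ

variable {M : ℕ}

theorem det_pos_of_mem_heckeSet {K : Subgroup (ZMod M)ˣ} {n : ℕ} (hn : 0 < n) {g : GLR}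
    (hg : g ∈ heckeSet M K n) : 0 < g.det.val := by
  obtain ⟨B, hB, hd, -⟩ := hg
  rw [Matrix.GeneralLinearGroup.val_det_apply, hB, ← RingHom.mapMatrix_apply, ← RingHom.map_det,
    hd]
  simpa using hn

theorem hecke_mem_ellParHoms {K : Subgroup (ZMod M)ˣ} {p : ℕ} [hp : Fact p.Prime]
    {φ : Additive (gammaH M K) →+ A} (hφ : φ ∈ ellParHoms (gammaH M K) A) :
    hecke M K p R φ ∈ ellParHoms (gammaH M K) A :=
  opOf_mem_ellParHoms _ (fun i => det_pos_of_mem_heckeSet hp.out.pos
    (hRep_mem_heckeSet (K := K) i)) hRep_injective_mod hφ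

theorem diamond_mem_ellParHoms {K : Subgroup (ZMod M)ˣ} (u : (ZMod M)ˣ)
    {φ : Additive (gammaH M K) →+ A} (hφ : φ ∈ ellParHoms (gammaH M K) A) :
    diamond M K R u φ ∈ ellParHoms (gammaH M K) A :=
  opOf_mem_ellParHoms _ (fun _ => by simp [diaRep]) (fun _ _ _ => rfl) hφ

/-- `Γ_{±1}(M)`. -/
abbrev pmGroup (M : ℕ) : Subgroup SL(2, ℤ) := gammaH M (Subgroup.zpowers (-1))

theorem neg_one_mem_pmGroup : -1 ∈ pmGroup M := neg_one_mem_gammaH (Subgroup.mem_zpowers _)

/-- The index set of the good operators: primes not dividing `M`, and units for the diamonds. -/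
abbrev GoodOp (M : ℕ) : Type := {p : ℕ // p.Prime ∧ ¬ p ∣ M} ⊕ (ZMod M)ˣ

/-- The good operators. -/
def goodOp (R : Type*) [Semiring R] {A : Type*} [AddCommGroup A] [Module R A] :
    GoodOp M → Module.End R (Additive (pmGroup M) →+ A)
  | .inl p => haveI := Fact.mk p.2.1; hecke M _ p R
  | .inr u => diamond M _ R u

theorem goodOp_mem (i : GoodOp M) {φ : Additive (pmGroup M) →+ A}
    (hφ : φ ∈ ellParHoms (pmGroup M) A) : goodOp R i φ ∈ ellParHoms (pmGroup M) A := by
  rcases i with p | u
  · have := Fact.mk p.2.1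
    exact hecke_mem_ellParHoms hφ
  · exact diamond_mem_ellParHoms u hφ

theorem goodOp_comm (i j : GoodOp M) (φ : Additive (pmGroup M) →+ A) :
    goodOp R i (goodOp R j φ) = goodOp R j (goodOp R i φ) := by
  rcases i with p | u <;> rcases j with q | v
  · have := Fact.mk p.2.1
    have := Fact.mk q.2.1
    exact hecke_comm R p.1 φ
  · have := Fact.mk p.2.1
    exact hecke_diamond R v φ
  · have := Fact.mk q.2.1
    exact (hecke_diamond R u φ).symm
  · show diamond M _ R u (diamond M _ R v φ) = diamond M _ R v (diamond M _ R u φ)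
    rw [← diamond_mul, ← diamond_mul, mul_comm]

theorem goodOp_comp_coeff {B : Type*} [AddCommGroup B] {S : Type*} [Semiring S] [Module S B]
    (i : GoodOp M) (f : A →+ B) (φ : Additive (pmGroup M) →+ A) :
    goodOp S i (f.comp φ) = f.comp (goodOp R i φ) := by
  rcases i with p | u
  · have := Fact.mk p.2.1
    exact opOf_comp_coeff (admissible_hRep (n := p.1)) f φ
  · exact opOf_comp_coeff (admissible_diaRep u) f φ

section Basis

variable (M) [NeZero M]

/-- Half the rank is the genus. -/
def homRank : ℕ := 2 * genusOf (pmGroup M)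

/-- Elements on which the homomorphisms are freely determined. -/
def homPts : Fin (homRank M) → pmGroup M :=
  (exists_basis_of_neg_one_mem.{0} (pmGroup M) neg_one_mem_pmGroup).choose

theorem homPts_bijective (B : Type) [AddCommGroup B] :
    Function.Bijective fun (φ : ellParHoms (pmGroup M) B) a =>
      (φ : Additive (pmGroup M) →+ B) (Additive.ofMul (homPts M a)) :=
  (exists_basis_of_neg_one_mem.{0} (pmGroup M) neg_one_mem_pmGroup).choose_spec B

/-- The dual basis. -/
def coordHom (a : Fin (homRank M)) : Additive (pmGroup M) →+ ℤ :=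
  (((homPts_bijective M ℤ).2 (Pi.single a 1)).choose : Additive (pmGroup M) →+ ℤ)

theorem coordHom_mem (a : Fin (homRank M)) : coordHom M a ∈ ellParHoms (pmGroup M) ℤ :=
  ((homPts_bijective M ℤ).2 (Pi.single a 1)).choose.2

theorem coordHom_apply (a b : Fin (homRank M)) :
    coordHom M a (Additive.ofMul (homPts M b)) = (Pi.single a 1 : _ → ℤ) b :=
  congrFun ((homPts_bijective M ℤ).2 (Pi.single a 1)).choose_spec b

variable {M} {B : Type} [AddCommGroup B]

theorem eq_of_homPts {φ ψ : Additive (pmGroup M) →+ B} (hφ : φ ∈ ellParHoms (pmGroup M) B)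
    (hψ : ψ ∈ ellParHoms (pmGroup M) B)
    (h : ∀ a, φ (Additive.ofMul (homPts M a)) = ψ (Additive.ofMul (homPts M a))) : φ = ψ :=
  congrArg Subtype.val ((homPts_bijective M B).1 (a₁ := ⟨φ, hφ⟩) (a₂ := ⟨ψ, hψ⟩) (funext h))

/-- The homomorphism with given values. -/
def ofVec (x : Fin (homRank M) → B) : Additive (pmGroup M) →+ B :=
  ∑ a, (zmultiplesHom B (x a)).comp (coordHom M a)

theorem ofVec_mem (x : Fin (homRank M) → B) : ofVec x ∈ ellParHoms (pmGroup M) B :=
  AddSubgroup.sum_mem _ fun a _ γ hγ => by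
    simp [coordHom_mem M a γ hγ]

theorem ofVec_apply (x : Fin (homRank M) → B) (b : Fin (homRank M)) :
    ofVec x (Additive.ofMul (homPts M b)) = x b := by
  simp [ofVec, coordHom_apply, Pi.single_apply, ite_smul]

/-- The integral matrix of an operator. -/
def opMat (i : GoodOp M) : Matrix (Fin (homRank M)) (Fin (homRank M)) ℤ :=
  Matrix.of fun b a => goodOp ℤ i (coordHom M a) (Additive.ofMul (homPts M b))

theorem goodOp_apply_homPts {S : Type*} [Semiring S] [Module S B] (i : GoodOp M)
    {φ : Additive (pmGroup M) →+ B} (hφ : φ ∈ ellParHoms (pmGroup M) B) (b : Fin (homRank M)) :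
    goodOp S i φ (Additive.ofMul (homPts M b)) =
      ∑ a, opMat i b a • φ (Additive.ofMul (homPts M a)) := by
  have he : φ = ofVec fun a => φ (Additive.ofMul (homPts M a)) :=
    eq_of_homPts hφ (ofVec_mem _) fun a => (ofVec_apply (fun a => φ (Additive.ofMul (homPts M a))) a).symm
  conv_lhs => rw [he]
  rw [ofVec, map_sum, AddMonoidHom.finsetSum_apply]
  refine Finset.sum_congr rfl fun a _ => ?_
  rw [goodOp_comp_coeff (R := ℤ)]
  rfl

theorem opMat_commute (i j : GoodOp M) : Commute (opMat i) (opMat j) := by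
  ext b a
  have key : ∀ i j : GoodOp M, (opMat i * opMat j) b a =
      goodOp ℤ i (goodOp ℤ j (coordHom M a)) (Additive.ofMul (homPts M b)) := fun i j => by
    rw [goodOp_apply_homPts i (goodOp_mem j (coordHom_mem M a)), Matrix.mul_apply]
    rfl
  rw [key, key, goodOp_comm]

end Basis

end Fermat.Agent.DeligneSerre
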