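import Fermat.Agent.EichlerShimura.RedPoint
import Fermat.Agent.FF.Along
import Mathlib.FieldTheory.KummerPolynomial
import Mathlib.RingTheory.RootsOfUnity.AlgebraicallyClosed
import Mathlib.RingTheory.AdjoinRoot

/-!
# Adjoining a root of a function with divisible divisor is unramified
-/

set_option autoImplicit false
set_option linter.unusedSectionVars false

noncomputable section

open scoped Classical
open Polynomial AlgebraicCurve

namespace Fermat.Agent.DeligneSerre

open Fermat.Agent.FF Fermat.Agent.EichlerShimura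

variable {K F : Type*} [Field K] [IsAlgClosed K] [Field F] [Algebra K F] [IsFunctionField K F]
  {l : ℕ} [Fact l.Prime] {h : F} [Fact (Irreducible (X ^ l - C h : F[X]))]

local notation "Y" => AdjoinRoot (X ^ l - C h : F[X])

omit [IsAlgClosed K] [IsFunctionField K F] [Algebra K F] in
theorem root_pow_eq : (AdjoinRoot.root (X ^ l - C h : F[X])) ^ l = algebraMap F Y h := by
  have := AdjoinRoot.eval₂_root (X ^ l - C h : F[X])
  rwa [eval₂_sub, eval₂_X_pow, eval₂_C, sub_eq_zero] at this

/-- A root of a function with divisor divisible by `l` generates an extension without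
ramification. -/
theorem ramificationIndex_root_eq_one (hl : (l : K) ≠ 0) (hd : ∀ P : Place K F, (l : ℤ) ∣ P.ord h)
    [IsFunctionField K Y] [FiniteDimensional F Y] (w : Place K Y) :
    w.ramificationIndex F = 1 := by
  have hlp : l.Prime := Fact.out
  set r : Y := AdjoinRoot.root (X ^ l - C h : F[X])
  set P := w.restrict F
  set e := w.ramificationIndex F with he
  have hinj := (algebraMap F Y).injective
  have hh0 : h ≠ 0 := fun h0 => by
    have hir : Irreducible (X ^ l - C h : F[X]) := Fact.out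
    rw [h0, map_zero, sub_zero] at hir
    exact not_irreducible_pow hlp.ne_one hir
  have hr0 : r ≠ 0 := fun h0 => hh0 (hinj (by rw [map_zero, ← root_pow_eq, show AdjoinRoot.root
    (X ^ l - C h : F[X]) = 0 from h0, zero_pow hlp.ne_zero]))
  obtain ⟨k, hk⟩ := hd P
  obtain ⟨t, ht0, ht⟩ := exists_ord_eq P (-k)
  set z : Y := algebraMap F Y t * r with hz
  have hz0 : z ≠ 0 := mul_ne_zero ((_root_.map_ne_zero _).mpr ht0) hr0
  have hzl : z ^ l = algebraMap F Y (t ^ l * h) := by
    rw [hz, mul_pow, root_pow_eq, map_mul, map_pow]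
  have hordl : w.ord (z ^ l) = 0 := by
    rw [hzl, w.ord_restrict, P.ord_mul (pow_ne_zero _ ht0) hh0, ← zpow_natCast t l, P.ord_zpow, ht, hk]
    ring
  have hord : w.ord z = 0 := by
    rw [← zpow_natCast z l, w.ord_zpow] at hordl
    exact (mul_eq_zero.mp hordl).resolve_left (by exact_mod_cast hlp.ne_zero)
  have hzmem : z ∈ w.toValuationSubring := (mem_ordGe_zero w).mp (mem_ordGe_of_le w hord.ge)
  set c : K := valAtP w ⟨z, hzmem⟩
  have hc : z - algebraMap K Y c ∈ ordGe w 1 := sub_valAtP_mem w hzmem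
  have : NeZero (l : K) := ⟨hl⟩
  obtain ⟨ζ, hζ⟩ := HasEnoughRootsOfUnity.exists_primitiveRoot K l
  have hc0 : c ≠ 0 := fun h0 => by
    rw [h0, map_zero, sub_zero] at hc
    rcases (mem_ordGe w).mp hc with h1 | h1
    · exact hz0 h1
    · omega
  -- the translations of the root
  let σ : ℕ → (Y →ₐ[F] Y) := fun j =>
    AdjoinRoot.liftAlgHom _ (Algebra.ofId F Y) (algebraMap K Y ζ ^ j * r) (by
      rw [eval₂_sub, eval₂_X_pow, eval₂_C, mul_pow, root_pow_eq, ← pow_mul, mul_comm j l, pow_mul,
        ← map_pow, hζ.pow_eq_one, map_one, one_pow, one_mul]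
      exact sub_self _)
  have hσK : ∀ j (a : K), σ j (algebraMap K Y a) = algebraMap K Y a := fun j a => by
    rw [IsScalarTower.algebraMap_apply K F Y, AlgHom.commutes]
  have hσz : ∀ j, σ j z = algebraMap K Y ζ ^ j * z := fun j => by
    rw [hz, map_mul, AlgHom.commutes]
    simp only [σ, r, AdjoinRoot.liftAlgHom_root]
    ring
  have hne : ∀ j i, σ j z - algebraMap K Y (ζ ^ i * c) ≠ 0 := fun j i h0 => by
    have hz' : z = algebraMap K Y ((ζ ^ j)⁻¹ * (ζ ^ i * c)) := by
      rw [sub_eq_zero, hσz] at h0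
      rw [map_mul _ (ζ ^ j)⁻¹, map_inv₀, map_pow, ← h0, inv_mul_cancel_left₀
        (pow_ne_zero _ ((_root_.map_ne_zero _).mpr (hζ.ne_zero hlp.ne_zero)))]
    set a : F := algebraMap K F ((ζ ^ j)⁻¹ * (ζ ^ i * c)) / t with ha
    have hal : a ^ l = h := hinj (by
      rw [map_pow, ha, map_div₀, ← IsScalarTower.algebraMap_apply K F Y, ← hz', hz,
        mul_div_cancel_left₀ _ ((_root_.map_ne_zero _).mpr ht0), root_pow_eq])
    have hir : Irreducible (X ^ l - C h : F[X]) := Fact.out
    exact (pow_ne_of_irreducible_X_pow_sub_C hir dvd_rfl hlp.ne_one a) hal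
  have hnn : ∀ j i, σ j z - algebraMap K Y (ζ ^ i * c) ∈ ordGe w 0 := fun j i => by
    rw [hσz, ← map_pow]
    exact sub_mem ((mem_ordGe_zero w).mpr (mul_mem (w.algebraMap_mem' _) hzmem))
      ((mem_ordGe_zero w).mpr (w.algebraMap_mem' _))
  have hpos : ∀ j, σ j z - algebraMap K Y (ζ ^ j * c) ∈ ordGe w 1 := fun j => by
    rw [hσz, map_mul, map_pow, ← mul_sub, ← map_pow, ← Algebra.smul_def]
    exact Submodule.smul_mem _ _ hc
  obtain ⟨s, hs0, hs⟩ := exists_ord_eq w 1
  let g : Y := ∏ i ∈ Finset.Ico 1 l, (z - algebraMap K Y (ζ ^ i * c))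
  have hσg : ∀ j, σ j g = ∏ i ∈ Finset.Ico 1 l, (σ j z - algebraMap K Y (ζ ^ i * c)) := fun j => by
    simp only [g, map_prod, map_sub, hσK]
  have hg : w.ord g = 0 := by
    have : ∀ i ∈ Finset.Ico 1 l, z - algebraMap K Y (ζ ^ i * c) ≠ 0 ∧
        w.ord (z - algebraMap K Y (ζ ^ i * c)) = 0 := fun i hi => by
      obtain ⟨hi1, hi2⟩ := Finset.mem_Ico.mp hi
      have hci : c - ζ ^ i * c ≠ 0 := by
        rw [← one_sub_mul]
        exact mul_ne_zero (sub_ne_zero.mpr fun h1 => hζ.pow_ne_one_of_pos_of_lt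
          (by omega) hi2 h1.symm) hc0
      have hlt : algebraMap K Y (c - ζ ^ i * c) ≠ 0 := (_root_.map_ne_zero _).mpr hci
      have hdec : z - algebraMap K Y (ζ ^ i * c)
          = algebraMap K Y (c - ζ ^ i * c) + (z - algebraMap K Y c) := by rw [map_sub]; ring
      rw [hdec]
      obtain ⟨h1, h2⟩ := ord_add_eq_left w hlt (g := z - algebraMap K Y c) (by
        rcases (mem_ordGe w).mp hc with h | h
        · exact Or.inl h
        · exact Or.inr (by rw [ord_algebraMap]; omega))
      exact ⟨h1, h2.trans (ord_algebraMap w _)⟩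
    simp only [g]
    revert this
    generalize Finset.Ico 1 l = S
    intro hS
    induction S using Finset.induction with
    | empty => simp
    | @insert i S hi ih =>
      rw [Finset.prod_insert hi, w.ord_mul (hS i (Finset.mem_insert_self _ _)).1
        (Finset.prod_ne_zero_iff.mpr fun a ha => (hS a (Finset.mem_insert_of_mem ha)).1),
        (hS i (Finset.mem_insert_self _ _)).2,
        ih fun a ha => hS a (Finset.mem_insert_of_mem ha), add_zero]
  have hg0 : g ≠ 0 := by
    refine Finset.prod_ne_zero_iff.mpr fun i _ h0 => hne 0 i ?_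
    rw [hσz, pow_zero, one_mul]; exact h0
  let N : ℕ := (∑ j ∈ Finset.range l, (w.ord (σ j s)).natAbs) + 2
  set y : Y := s * g ^ N with hy
  have hy1 : w.ord y = 1 := by
    rw [hy, w.ord_mul hs0 (pow_ne_zero _ hg0), ← zpow_natCast, w.ord_zpow, hg, hs]; ring
  have hσy : ∀ j ∈ Finset.Ico 1 l, σ j y ∈ ordGe w 2 := by
    intro j hj
    rw [hy, map_mul, map_pow]
    have h1 : σ j g ∈ ordGe w 1 := by
      rw [hσg, ← Finset.mul_prod_erase _ _ hj]
      have := mul_mem_ordGe w (hpos j) (m := 1) (n := 0) (g := ∏ i ∈ (Finset.Ico 1 l).erase j,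
        (σ j z - algebraMap K Y (ζ ^ i * c))) ((mem_ordGe_zero w).mpr (prod_mem fun i _ =>
          (mem_ordGe_zero w).mp (hnn j i)))
      simpa using this
    have hN : ∀ n : ℕ, (σ j g) ^ n ∈ ordGe w (n : ℤ) := fun n => by
      induction n with
      | zero => rw [pow_zero]; exact (mem_ordGe_zero w).mpr (one_mem _)
      | succ n ih => rw [pow_succ]; exact_mod_cast mul_mem_ordGe w ih h1
    have h2 := mul_mem_ordGe w (mem_ordGe_of_le w (le_refl (w.ord (σ j s)))) (hN N)
    refine ordGe_anti w ?_ h2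
    have h3 := Finset.single_le_sum (f := fun j => (w.ord (σ j s)).natAbs) (fun _ _ => Nat.zero_le _)
      (Finset.mem_range.mpr (Finset.mem_Ico.mp hj).2)
    simp only [N, Nat.cast_add, Nat.cast_ofNat]
    omega
  have hσ0 : σ 0 y = y := by
    have : σ 0 = AlgHom.id F Y := AdjoinRoot.algHom_ext (by simp [σ, r])
    rw [this]; rfl
  -- the trace of `y` lies below and is a uniformizer
  have hsum : ∑ j ∈ Finset.range l, σ j y ∈ (algebraMap F Y).range := by
    obtain ⟨Q, hQ⟩ := AdjoinRoot.mk_surjective y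
    rw [← hQ]
    simp only [σ, AdjoinRoot.liftAlgHom_mk]
    simp only [eval₂_eq_sum_range, mul_pow]
    rw [Finset.sum_comm]
    refine Subring.sum_mem _ fun i _ => ?_
    rw [← Finset.mul_sum, ← Finset.sum_mul]
    refine Subring.mul_mem _ ⟨Q.coeff i, rfl⟩ ?_
    by_cases hi : l ∣ i
    · obtain ⟨m, rfl⟩ := hi
      refine Subring.mul_mem _ ⟨algebraMap K F (∑ x ∈ Finset.range l, (ζ ^ x) ^ (l * m)), ?_⟩
        ⟨h ^ m, by rw [map_pow, pow_mul, root_pow_eq]⟩
      rw [← IsScalarTower.algebraMap_apply]; simp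
    · have h0 : ∑ x ∈ Finset.range l, (algebraMap K Y ζ ^ x) ^ i = 0 := by
        have h1 : ζ ^ i ≠ 1 := fun h => hi ((hζ.pow_eq_one_iff_dvd i).mp h)
        have h2 : (∑ x ∈ Finset.range l, (ζ ^ i) ^ x) = 0 := by
          rw [geom_sum_eq h1, ← pow_mul, mul_comm, pow_mul, hζ.pow_eq_one, one_pow, sub_self,
            zero_div]
        rw [← map_zero (algebraMap K Y), ← h2, map_sum]
        exact Finset.sum_congr rfl fun x _ => by
          rw [map_pow, map_pow, ← pow_mul, ← pow_mul, mul_comm]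
      rw [h0, zero_mul]; exact Subring.zero_mem _
  obtain ⟨f, hf⟩ := hsum
  rw [Finset.range_eq_Ico, Finset.sum_eq_sum_Ico_succ_bot hlp.pos, hσ0] at hf
  have hy0 : y ≠ 0 := mul_ne_zero hs0 (pow_ne_zero _ hg0)
  obtain ⟨hfne, hford⟩ := ord_add_eq_left w hy0
    (g := ∑ j ∈ Finset.Ico (0 + 1) l, σ j y) (by
      simp only [zero_add]
      rcases (mem_ordGe w).mp (Submodule.sum_mem (ordGe w 2) hσy) with h | h
      · exact Or.inl h
      · exact Or.inr (by rw [hy1]; omega))
  rw [← hf] at hford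
  rw [hy1, w.ord_restrict] at hford
  have := Int.eq_one_of_mul_eq_one_right (Int.natCast_nonneg _) hford
  exact_mod_cast this

end Fermat.Agent.DeligneSerre
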